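import Fermat.Agent.ClassField.S56.TW.Conj

/-!
# Regular semisimple elements span
-/

set_option autoImplicit false

open Matrix

namespace Fermat.Agent.ClassField.TWElement

variable {K : Type*} [Field K]

lemma trace_mul_conj (g : GL (Fin 2) K) (X : M2 K) (y : GL (Fin 2) K) :
    (conjMat g⁻¹ X * y.1).trace = (X * (g * y * g⁻¹).1).trace := by
  simp only [conjMat_apply, inv_inv, Units.val_mul]
  rw [mul_assoc, mul_assoc, Matrix.trace_mul_comm g⁻¹.1]
  simp only [mul_assoc]

lemma trace_sq_conj (g : GL (Fin 2) K) (y : GL (Fin 2) K) :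
    (g * y * g⁻¹).1.trace = y.1.trace := by
  rw [val_conj, trace_conjMat]

/-- The case of a non-trivial element of trace two, in adapted coordinates. -/
lemma span_unipotent (h2 : (2 : K) ≠ 0) {H : Subgroup (GL (Fin 2) K)} (X : M2 K)
    (hX : X.trace = 0) (hrs : ∀ h ∈ H, h.1.trace ^ 2 ≠ 4 → (X * h.1).trace = 0)
    {u u' : GL (Fin 2) K} (hu : u ∈ H) (hu' : u' ∈ H) {b c : K} (hb : b ≠ 0) (hc : c ≠ 0)
    (eu : u.1 = !![1, b; 0, 1]) (eu' : u'.1 = !![1, 0; c, 1]) : X = 0 := by
  have h4 : (4 : K) ≠ 0 := fun h => mul_ne_zero h2 h2 (by linear_combination h)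
  have hui : u⁻¹.1 = !![1, -b; 0, 1] := Units.inv_eq_of_mul_eq_one_right (by
    rw [eu]; ext i j; fin_cases i <;> fin_cases j <;> simp [Matrix.mul_apply, Fin.sum_univ_two])
  have hui' : u'⁻¹.1 = !![1, 0; -c, 1] := Units.inv_eq_of_mul_eq_one_right (by
    rw [eu']; ext i j; fin_cases i <;> fin_cases j <;> simp [Matrix.mul_apply, Fin.sum_univ_two])
  have hX11 : X 1 1 = -X 0 0 := by rw [Matrix.trace_fin_two] at hX; linear_combination hX
  obtain ⟨s, w, hw, hw', es, ews, ewi⟩ : ∃ (s : K) (w : GL (Fin 2) K), w ∈ H ∧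
      s ≠ 0 ∧ s * b * c + 4 ≠ 0 ∧ w.1 = !![1, 0; s * c, 1] ∧ w⁻¹.1 = !![1, 0; -(s * c), 1] := by
    by_cases h : b * c + 4 = 0
    · refine ⟨-1, u'⁻¹, inv_mem hu', by simp, fun e => ?_, by simp [hui'], by simp [eu']⟩
      exact mul_ne_zero h2 h4 (by linear_combination e + h)
    · exact ⟨1, u', hu', one_ne_zero, by simpa using h, by simp [eu'], by simp [hui']⟩
  have ht : ∀ z : GL (Fin 2) K, z.1.trace = 2 + s * b * c → z.1.trace ^ 2 ≠ 4 := by
    intro z hz e
    rw [hz] at e
    exact mul_ne_zero (mul_ne_zero (mul_ne_zero hw' hb) hc) es (by linear_combination e)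
  have e1 := hrs (u * w) (mul_mem hu hw) (ht _ (by
    simp [eu, ews, Matrix.trace_fin_two]; ring))
  have e2 := hrs (u⁻¹ * w⁻¹) (mul_mem (inv_mem hu) (inv_mem hw)) (ht _ (by
    simp [hui, ewi, Matrix.trace_fin_two]; ring))
  have e3 := hrs (u * u * w * u⁻¹) (mul_mem (mul_mem (mul_mem hu hu) hw) (inv_mem hu)) (ht _ (by
    simp [eu, ews, hui, Matrix.trace_fin_two]; ring))
  simp [eu, ews, hui, ewi, Matrix.trace_fin_two, Matrix.mul_apply, Fin.sum_univ_two, hX11]
    at e1 e2 e3
  have ha : X 0 0 = 0 := by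
    have : (2 * s * b * c) * X 0 0 = 0 := by linear_combination e1 + e2
    exact (mul_eq_zero_iff_left (mul_ne_zero (mul_ne_zero (mul_ne_zero h2 hw') hb) hc)).mp this
  rw [ha] at e1 e2 e3
  have hg : X 1 0 = 0 := by
    have : (2 * s * b * b * c) * X 1 0 = 0 := by linear_combination e1 - e3
    exact (mul_eq_zero_iff_left
      (mul_ne_zero (mul_ne_zero (mul_ne_zero (mul_ne_zero h2 hw') hb) hb) hc)).mp this
  rw [hg] at e1
  have hbeta : X 0 1 = 0 := by
    have : (s * c) * X 0 1 = 0 := by linear_combination e1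
    exact (mul_eq_zero_iff_left (mul_ne_zero hw' hc)).mp this
  ext i j
  fin_cases i <;> fin_cases j <;> simp [ha, hg, hbeta, hX11]

/-- A traceless matrix orthogonal to the regular semisimple elements vanishes. -/
theorem eq_zero_of_forall_rs [IsAlgClosed K] (h2 : (2 : K) ≠ 0) {H : Subgroup (GL (Fin 2) K)}
    (hdet : ∀ h ∈ H, h.1.det = 1) (hno : NoLine H) (X : M2 K) (hX : X.trace = 0)
    (hrs : ∀ h ∈ H, h.1.trace ^ 2 ≠ 4 → (X * h.1).trace = 0) : X = 0 := by
  by_cases hun : ∃ u ∈ H, u.1.trace = 2 ∧ u ≠ 1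
  · obtain ⟨u, hu, hut, hu1⟩ := hun
    obtain ⟨v, hv, huv⟩ := exists_fixed_of_trace_two (hdet u hu) hut
    obtain ⟨x, hx, hxv⟩ := hno v hv
    set w := x.1.mulVec v with hw
    have hvw : v 0 * w 1 - w 0 * v 1 ≠ 0 := by
      intro e
      by_cases h0 : v 0 = 0
      · have h1 : v 1 ≠ 0 := fun h1 => hv (funext fun i => by fin_cases i <;> simp [h0, h1])
        have hw0 : w 0 = 0 := by
          rw [h0, zero_mul, zero_sub, neg_eq_zero] at e
          exact (mul_eq_zero_iff_right h1).mp e
        refine hxv (w 1 / v 1) (funext fun i => ?_)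
        fin_cases i <;> simp [← hw, h0, hw0, div_mul_cancel₀, h1]
      · refine hxv (w 0 / v 0) (funext fun i => ?_)
        fin_cases i
        · simp [← hw, div_mul_cancel₀, h0]
        · simp [← hw]; field_simp; linear_combination e
    obtain ⟨g, hgv, hgw⟩ := exists_gl_of_cols hvw
    have hu' : (x * u * x⁻¹).1.mulVec w = (1 : K) • w := by
      have hback : x⁻¹.1.mulVec w = v := by
        rw [hw, Matrix.mulVec_mulVec, ← Units.val_mul, inv_mul_cancel, Units.val_one,
          Matrix.one_mulVec]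
      rw [Units.val_mul, ← Matrix.mulVec_mulVec, hback, Units.val_mul, ← Matrix.mulVec_mulVec, huv,
        Matrix.mulVec_smul]
    have key : conjMat g⁻¹ X = 0 := by
      refine span_unipotent h2 (H := cnj g H) (conjMat g⁻¹ X) (by simpa using hX)
        (fun y hy hyt => ?_) (inv_conj_mem_cnj hu)
        (inv_conj_mem_cnj (mul_mem (mul_mem hx hu) (inv_mem hx))) (b := (g⁻¹ * u * g).1 0 1)
        (c := (g⁻¹ * (x * u * x⁻¹) * g).1 1 0) ?_ ?_ ?_ ?_
      · rw [trace_mul_conj]
        exact hrs _ hy (by rwa [trace_sq_conj])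
      · obtain ⟨h10, h00, h11⟩ := unipotent_of_conj hgv huv (hdet u hu)
        intro h01
        apply hu1
        have : g⁻¹ * u * g = 1 := Units.ext (by
          ext i j; fin_cases i <;> fin_cases j <;> simp only [Units.val_one] <;>
            first | simpa using h10 | simpa using h00 | simpa using h11 | simpa using h01)
        calc u = g * (g⁻¹ * u * g) * g⁻¹ := by group
          _ = 1 := by rw [this]; group
      · intro h10'
        set y := g⁻¹ * (x * u * x⁻¹) * g with hy
        have hyw : y.1.mulVec ![0, 1] = (1 : K) • ![0, 1] := by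
          rw [hy, Units.val_mul, Units.val_mul g⁻¹, ← Matrix.mulVec_mulVec, hgw,
            ← Matrix.mulVec_mulVec, hu', Matrix.mulVec_smul, ← hgw, Matrix.mulVec_mulVec,
            ← Units.val_mul, inv_mul_cancel, Units.val_one, Matrix.one_mulVec]
        have e01 : y.1 0 1 = 0 := by
          simpa [Matrix.mulVec, dotProduct, Fin.sum_univ_two] using congrFun hyw 0
        have e11 : y.1 1 1 = 1 := by
          simpa [Matrix.mulVec, dotProduct, Fin.sum_univ_two] using congrFun hyw 1
        have hyd : y.1.det = 1 := det_cnj hdet y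
          (inv_conj_mem_cnj (mul_mem (mul_mem hx hu) (inv_mem hx)))
        have e00 : y.1 0 0 = 1 := by
          rw [Matrix.det_fin_two, e01, e11] at hyd; linear_combination hyd
        apply hu1
        have hy1 : y = 1 := Units.ext (by
          ext i j; fin_cases i <;> fin_cases j <;> simp only [Units.val_one] <;>
            first | simpa using h10' | simpa using e00 | simpa using e11 | simpa using e01)
        calc u = x⁻¹ * (g * y * g⁻¹) * x := by rw [hy]; group
          _ = 1 := by rw [hy1]; group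
      · obtain ⟨h10, h00, h11⟩ := unipotent_of_conj hgv huv (hdet u hu)
        ext i j; fin_cases i <;> fin_cases j <;> simp_all
      · set y := g⁻¹ * (x * u * x⁻¹) * g with hy
        have hyw : y.1.mulVec ![0, 1] = (1 : K) • ![0, 1] := by
          rw [hy, Units.val_mul, Units.val_mul g⁻¹, ← Matrix.mulVec_mulVec, hgw,
            ← Matrix.mulVec_mulVec, hu', Matrix.mulVec_smul, ← hgw, Matrix.mulVec_mulVec,
            ← Units.val_mul, inv_mul_cancel, Units.val_one, Matrix.one_mulVec]
        have e01 : y.1 0 1 = 0 := by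
          simpa [Matrix.mulVec, dotProduct, Fin.sum_univ_two] using congrFun hyw 0
        have e11 : y.1 1 1 = 1 := by
          simpa [Matrix.mulVec, dotProduct, Fin.sum_univ_two] using congrFun hyw 1
        have hyd : y.1.det = 1 := det_cnj hdet y
          (inv_conj_mem_cnj (mul_mem (mul_mem hx hu) (inv_mem hx)))
        have e00 : y.1 0 0 = 1 := by
          rw [Matrix.det_fin_two, e01, e11] at hyd; linear_combination hyd
        ext i j; fin_cases i <;> fin_cases j <;> simp [e00, e01, e11]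
    rw [← conjMat_self_inv g X, key, map_zero]
  · push Not at hun
    have hns : ∀ h ∈ H, h.1.trace ^ 2 = 4 → h.1 = 1 ∨ h.1 = -1 := by
      intro h hh ht
      have ht' : h.1.trace = 2 ∨ h.1.trace = -2 := by
        have : (h.1.trace - 2) * (h.1.trace + 2) = 0 := by linear_combination ht
        rcases mul_eq_zero.mp this with e | e
        · exact Or.inl (by linear_combination e)
        · exact Or.inr (by linear_combination e)
      rcases ht' with e | e
      · exact Or.inl (by rw [hun h hh e, Units.val_one])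
      · have hsq : (h * h).1.trace = 2 := by
          rw [Units.val_mul, mul_self_eq, hdet h hh, e]
          simp [Matrix.trace_fin_two, ← two_mul]
          rw [Matrix.trace_fin_two] at e
          linear_combination (-2) * e
        have h1 : h.1 * h.1 = 1 := by
          rw [← Units.val_mul, hun _ (mul_mem hh hh) hsq, Units.val_one]
        rw [mul_self_eq, hdet h hh, e, one_smul] at h1
        right
        apply smul_right_injective (M2 K) (neg_ne_zero.mpr h2)
        simp only
        rw [sub_eq_iff_eq_add.mp h1, smul_neg, neg_smul, neg_neg, two_smul]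
    obtain ⟨x, hx, hxv⟩ := hno.exists_e10
    have hxrs : x.1.trace ^ 2 ≠ 4 := fun e => by
      rcases hns x hx e with h | h <;> simp [h] at hxv
    obtain ⟨μ, v, hv, hxμ⟩ := exists_eigenvector h2 x.1
    have hall : ∀ h ∈ H, (X * h.1).trace = 0 := by
      intro h hh
      by_cases ht : h.1.trace ^ 2 = 4
      · rcases hns h hh ht with e | e <;> simp [e, hX]
      · exact hrs h hh ht
    -- the other eigenvector
    obtain ⟨g₀, hg₀⟩ := exists_gl_of_col hv
    obtain ⟨hh10, hh00⟩ := conj_e10_eq_zero hg₀ hxμ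
    set h₀ := g₀⁻¹ * x * g₀ with hh₀
    have hd₀ : h₀.1.det = 1 := det_cnj hdet _ (inv_conj_mem_cnj hx)
    have hdd : h₀.1 0 0 * h₀.1 1 1 = 1 := by
      rw [Matrix.det_fin_two, hh10] at hd₀; linear_combination hd₀
    have hne : h₀.1 0 0 ≠ h₀.1 1 1 := by
      intro e
      apply hxrs
      rw [show x.1.trace = h₀.1.trace by rw [← trace_sq_conj g₀ h₀, hh₀]; congr 2; group,
        Matrix.trace_fin_two, ← e]
      rw [← e] at hdd
      linear_combination 4 * hdd
    -- diagonalise
    let t : K := h₀.1 0 1 / (h₀.1 1 1 - h₀.1 0 0)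
    obtain ⟨g₁, hg₁, hg₁'⟩ := exists_gl_of_cols (v := ![(1 : K), 0]) (w := ![t, 1]) (by simp)
    let g := g₀ * g₁
    have hH' : ∀ y ∈ cnj g H, (conjMat g⁻¹ X * y.1).trace = 0 := fun y hy => by
      rw [trace_mul_conj]; exact hall _ hy
    obtain ⟨d, hdm, e10, e01, ene⟩ : ∃ d ∈ cnj g H, d.1 1 0 = 0 ∧ d.1 0 1 = 0 ∧
        d.1 0 0 ≠ d.1 1 1 := by
      refine ⟨g⁻¹ * x * g, inv_conj_mem_cnj hx, ?_⟩
      have e : g⁻¹ * x * g = g₁⁻¹ * h₀ * g₁ := by simp only [g, hh₀]; group
      rw [e]
      have hv1 : h₀.1.mulVec ![1, 0] = h₀.1 0 0 • ![1, 0] := funext fun i => by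
        fin_cases i <;> simp [Matrix.mulVec, dotProduct, Fin.sum_univ_two, hh10]
      have hv2 : h₀.1.mulVec ![t, 1] = h₀.1 1 1 • ![t, 1] := funext fun i => by
        fin_cases i
        · simp [Matrix.mulVec, dotProduct, Fin.sum_univ_two, t]
          field_simp [sub_ne_zero.mpr hne.symm]
          ring
        · simp [Matrix.mulVec, dotProduct, Fin.sum_univ_two, hh10]
      obtain ⟨c10, c00⟩ := conj_e10_eq_zero hg₁ hv1
      have h2v : (g₁⁻¹ * h₀ * g₁).1.mulVec ![0, 1] = h₀.1 1 1 • ![0, 1] := by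
        rw [Units.val_mul, Units.val_mul g₁⁻¹, ← Matrix.mulVec_mulVec, hg₁',
          ← Matrix.mulVec_mulVec, hv2, Matrix.mulVec_smul, ← hg₁', Matrix.mulVec_mulVec,
          ← Units.val_mul, inv_mul_cancel, Units.val_one, Matrix.one_mulVec]
      have c01 : (g₁⁻¹ * h₀ * g₁).1 0 1 = 0 := by
        simpa [Matrix.mulVec, dotProduct, Fin.sum_univ_two] using congrFun h2v 0
      have c11 : (g₁⁻¹ * h₀ * g₁).1 1 1 = h₀.1 1 1 := by
        simpa [Matrix.mulVec, dotProduct, Fin.sum_univ_two] using congrFun h2v 1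
      exact ⟨c10, c01, by rw [c00, c11]; exact hne⟩
    set Y := conjMat g⁻¹ X with hY
    have hY11 : Y 1 1 = -Y 0 0 := by
      have : Y.trace = 0 := by simpa [hY] using hX
      rw [Matrix.trace_fin_two] at this; linear_combination this
    have ha : Y 0 0 = 0 := by
      have h := hH' d hdm
      simp [Matrix.trace_fin_two, Matrix.mul_apply, Fin.sum_univ_two, e10, e01, hY11] at h
      exact (mul_eq_zero_iff_right (sub_ne_zero.mpr ene)).mp
        (show Y 0 0 * (d.1 0 0 - d.1 1 1) = 0 by linear_combination h)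
    have hpair : ∀ y ∈ cnj g H, Y 0 1 * y.1 1 0 = 0 ∧ Y 1 0 * y.1 0 1 = 0 := by
      intro y hy
      have h := hH' y hy
      have h' := hH' (d * y) (mul_mem hdm hy)
      simp [Matrix.trace_fin_two, Matrix.mul_apply, Fin.sum_univ_two, e10, e01, hY11, ha] at h h'
      have hs := sub_ne_zero.mpr ene
      exact ⟨(mul_eq_zero_iff_right hs).mp
          (show (Y 0 1 * y.1 1 0) * (d.1 0 0 - d.1 1 1) = 0 by
            linear_combination d.1 0 0 * h - h'),
        (mul_eq_zero_iff_right hs).mp
          (show (Y 1 0 * y.1 0 1) * (d.1 0 0 - d.1 1 1) = 0 by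
            linear_combination h' - d.1 1 1 * h)⟩
    obtain ⟨y, hy, hy10⟩ := (noLine_cnj hno g).exists_e10
    obtain ⟨z, hz, hz01⟩ := (noLine_cnj hno g).exists_e01
    have hY0 : Y = 0 := by
      have h1 := (mul_eq_zero_iff_right hy10).mp (hpair y hy).1
      have h2' := (mul_eq_zero_iff_right hz01).mp (hpair z hz).2
      ext i j
      fin_cases i <;> fin_cases j <;> simp [ha, h1, h2', hY11]
    rw [← conjMat_self_inv g X, ← hY, hY0, map_zero]

end Fermat.Agent.ClassField.TWElement
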