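import Fermat.Agent.ClassField.S56.TW.Main
import Fermat.Agent.ClassField.S56.TW.Span

/-!
# From the representation to the finite image
-/

set_option autoImplicit false

open Matrix

namespace Fermat.Agent.ClassField.TWElement

variable {K : Type*} [Field K] {p : ℕ} [Fact p.Prime] [CharP K p]
  {H : Subgroup (GL (Fin 2) K)} {f : GL (Fin 2) K → M2 K}

omit [Fact p.Prime] [CharP K p] in
lemma conjMat_neg (a : GL (Fin 2) K) (M : M2 K) : conjMat (-a) M = conjMat a M := by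
  have e : (-a)⁻¹ = -a⁻¹ := inv_eq_of_mul_eq_one_right (by simp)
  simp [conjMat_apply, e]

/-- Adjoining `-1`. -/
def plusMinus (H : Subgroup (GL (Fin 2) K)) : Subgroup (GL (Fin 2) K) where
  carrier := {x | ∃ y ∈ H, x = y ∨ x = -y}
  one_mem' := ⟨1, one_mem H, Or.inl rfl⟩
  mul_mem' := by
    rintro a b ⟨y, hy, ha⟩ ⟨z, hz, hb⟩
    refine ⟨y * z, mul_mem hy hz, ?_⟩
    rcases ha with rfl | rfl <;> rcases hb with rfl | rfl <;> simp
  inv_mem' := by
    rintro a ⟨y, hy, ha⟩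
    refine ⟨y⁻¹, inv_mem hy, ?_⟩
    rcases ha with rfl | rfl
    · exact Or.inl rfl
    · exact Or.inr (inv_eq_of_mul_eq_one_right (by simp))

omit [Fact p.Prime] [CharP K p] in
lemma le_plusMinus : H ≤ plusMinus H := fun x hx => ⟨x, hx, Or.inl rfl⟩

instance finite_plusMinus (H : Subgroup (GL (Fin 2) K)) [Finite H] : Finite (plusMinus H) := by
  refine Finite.of_surjective (α := H × Bool) (fun x => ⟨bif x.2 then x.1.1 else -x.1.1,
    x.1.1, x.1.2, by cases x.2 <;> simp⟩) ?_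
  rintro ⟨x, y, hy, h | h⟩
  · exact ⟨⟨⟨y, hy⟩, true⟩, Subtype.ext h.symm⟩
  · exact ⟨⟨⟨y, hy⟩, false⟩, Subtype.ext h.symm⟩

variable [IsAlgClosed K]

/-- Cocycles of irreducible subgroups of `SL₂` are coboundaries, given outer elements. -/
theorem isBdry_of_noLine [Finite H] (hp : p ≠ 2) (hdet : ∀ h ∈ H, h.1.det = 1) (hno : NoLine H)
    (hneg : ∃ z ∈ H, z.1 = -1) (hf : IsCocycle H f)
    (houter : ∀ c : ZMod p, c ≠ 0 → ∃ a, a.1.det = ZMod.castHom (dvd_refl p) K c ∧ EquivAt H f a) :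
    IsBdry H f := by
  have h2 : (2 : K) ≠ 0 := two_ne hp
  by_cases hun : ∃ u : H, u.1.1.trace = 2 ∧ u ≠ 1
  · obtain ⟨u, hut, hu1⟩ := hun
    obtain ⟨v, hv, huv⟩ := exists_fixed_of_trace_two (hdet _ u.2) hut
    obtain ⟨g, hg⟩ := exists_gl_of_col hv
    refine isBdry_of_cnj (g := g) (isBdry_of_unipotent hp (det_cnj hdet) (noLine_cnj hno g) ?_
      (hf.cnj g) (fun c hc => ?_) ?_)
    · obtain ⟨z, hz, hz1⟩ := hneg
      refine ⟨g⁻¹ * z * g, inv_conj_mem_cnj hz, ?_⟩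
      rw [Units.val_mul, Units.val_mul, hz1, mul_neg, mul_one, neg_mul, ← Units.val_mul,
        inv_mul_cancel, Units.val_one]
    · obtain ⟨a, ha, hae⟩ := houter c hc
      refine ⟨g⁻¹ * a * g, ?_, hae.cnj g⟩
      rw [← ha, Units.val_mul, Units.val_mul, Matrix.det_mul, Matrix.det_mul, mul_right_comm,
        ← Matrix.det_mul, ← Units.val_mul, inv_mul_cancel, Units.val_one, Matrix.det_one, one_mul]
    · intro hbot
      let w : cnj g H := ⟨g⁻¹ * u.1 * g, inv_conj_mem_cnj u.2⟩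
      have hw : w ∈ PH (cnj g H) := unipotent_of_conj hg huv (hdet _ u.2)
      rw [hbot, Subgroup.mem_bot] at hw
      apply hu1
      apply Subtype.ext
      calc u.1 = g * (g⁻¹ * u.1 * g) * g⁻¹ := by group
        _ = g * ((1 : cnj g H) : GL (Fin 2) K) * g⁻¹ := by rw [← hw]
        _ = _ := by simp
  · push Not at hun
    refine hf.isBdry_of_vanish (⊥ : Subgroup H) ?_ fun u hu => by
      rw [Subgroup.mem_bot.mp hu]; exact hf.map_one'
    rw [Subgroup.index_bot, Ne, CharP.cast_eq_zero_iff K p]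
    intro hdvd
    obtain ⟨u, hu⟩ := exists_prime_orderOf_dvd_card' p hdvd
    have h1 : u.1 ^ p ^ 1 = 1 := by
      rw [pow_one, ← Subgroup.coe_pow, ← hu, pow_orderOf_eq_one, Subgroup.coe_one]
    have := hun u (trace_eq_two_of_pow_eq_one (p := p) h2 (hdet _ u.2) h1)
    rw [this, orderOf_one] at hu
    exact (Fact.out : p.Prime).one_lt.ne hu

variable {G : Type*} [Group G]

/-- Over an algebraically closed field: if `ψ` has no component at any regular semisimple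
element of `Γn` then it is a coboundary. -/
theorem exists_coboundary (hp : p ≠ 2) (ρ : G →* GL (Fin 2) K) (hfin : (Set.range ρ).Finite)
    (Γn : Subgroup G) [Γn.Normal] (hdet1 : ∀ h ∈ Γn, (ρ h).1.det = 1)
    (hdetSurj : ∀ u : (ZMod p)ˣ, ∃ g, (ρ g).1.det = ZMod.castHom (dvd_refl p) K (u : ZMod p))
    (hno : NoLine (Γn.map ρ)) (ψ : G → M2 K) (hψ0 : ∀ g, (ψ g).trace = 0)
    (hψ : ∀ g h, ψ (g * h) = ψ g + (ρ g).1.det • conjMat (ρ g) (ψ h))
    (h0 : ∀ σ ∈ Γn, (ρ σ).1.trace ^ 2 ≠ 4 → (ψ σ * (ρ σ).1).trace = 0) :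
    ∃ X : M2 K, X.trace = 0 ∧ ∀ g, ψ g = (ρ g).1.det • conjMat (ρ g) X - X := by
  classical
  have h2 : (2 : K) ≠ 0 := two_ne hp
  set H := Γn.map ρ with hH
  have hHfin : Finite H := (hfin.subset (Set.image_subset_range ρ Γn)).to_subtype
  have hdet : ∀ x ∈ H, x.1.det = 1 := by rintro _ ⟨h, hh, rfl⟩; exact hdet1 h hh
  have hψΓ : ∀ h ∈ Γn, ∀ g, ψ (h * g) = ψ h + conjMat (ρ h) (ψ g) := fun h hh g => by
    rw [hψ, hdet1 h hh, one_smul]
  have hψ1 : ψ 1 = 0 := by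
    have := hψΓ 1 Γn.one_mem 1
    simpa using this
  have hker : ∀ τ ∈ Γn, ρ τ = 1 → ψ τ = 0 := by
    intro τ hτ hτ1
    refine eq_zero_of_forall_rs h2 hdet hno _ (hψ0 τ) ?_
    rintro _ ⟨σ, hσ, rfl⟩ ht
    have h := h0 (τ * σ) (mul_mem hτ hσ) (by rwa [map_mul, hτ1, one_mul])
    rw [hψΓ τ hτ, hτ1, conjMat_one, map_mul, hτ1, one_mul, add_mul, Matrix.trace_add,
      h0 σ hσ ht, add_zero] at h
    exact h
  let f : GL (Fin 2) K → M2 K := fun x => if hx : x ∈ H then ψ hx.choose else 0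
  have hfρ : ∀ h ∈ Γn, f (ρ h) = ψ h := by
    intro h hh
    have hx : ρ h ∈ H := ⟨h, hh, rfl⟩
    simp only [f, dif_pos hx]
    obtain ⟨hc, he⟩ := hx.choose_spec
    have hmem : h * hx.choose⁻¹ ∈ Γn := mul_mem hh (inv_mem hc)
    have hk : ρ (h * hx.choose⁻¹) = 1 := by rw [map_mul, map_inv, he, mul_inv_cancel]
    conv_rhs => rw [← inv_mul_cancel_right h hx.choose]
    rw [hψΓ _ hmem, hker _ hmem hk, hk, conjMat_one, zero_add]
  have hf : IsCocycle H f := by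
    refine ⟨?_, ?_⟩
    · rintro _ ⟨h, hh, rfl⟩; rw [hfρ h hh]; exact hψ0 h
    · rintro _ ⟨h, hh, rfl⟩ _ ⟨h', hh', rfl⟩
      rw [← map_mul, hfρ _ (mul_mem hh hh'), hψΓ h hh, hfρ h hh, hfρ h' hh']
  -- adjoin `-1`
  have hsame : ∀ x ∈ H, -x ∈ H → f (-x) = f x := by
    intro x hx hx'
    have hz : (-1 : GL (Fin 2) K) ∈ H := by
      have := mul_mem hx' (inv_mem hx)
      simpa using this
    have hfz : f (-1) = 0 := by
      have h := hf.map_mul' _ hz _ hz
      rw [neg_one_mul, neg_neg, hf.map_one', conjMat_neg, conjMat_one] at h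
      have : (2 : K) • f (-1) = 0 := by rw [two_smul]; exact h.symm
      exact (smul_eq_zero.mp this).resolve_left h2
    have h := hf.map_mul' _ hz _ hx
    rw [neg_one_mul, hfz, conjMat_neg, conjMat_one, zero_add] at h
    exact h
  let fp : GL (Fin 2) K → M2 K := fun x => if x ∈ H then f x else f (-x)
  have hfp : ∀ x y, y ∈ H → (x = y ∨ x = -y) → fp x = f y := by
    intro x y hy h
    rcases h with rfl | rfl
    · simp [fp, hy]
    · by_cases hn : -y ∈ H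
      · simp only [fp, if_pos hn]; exact hsame y hy hn
      · simp only [fp, if_neg hn, neg_neg]
  have hfpc : IsCocycle (plusMinus H) fp := by
    refine ⟨?_, ?_⟩
    · rintro x ⟨y, hy, h⟩; rw [hfp x y hy h]; exact hf.trace_eq y hy
    · rintro a ⟨y, hy, ha⟩ b ⟨z, hz, hb⟩
      rw [hfp a y hy ha, hfp b z hz hb, hfp (a * b) (y * z) (mul_mem hy hz) (by
        rcases ha with rfl | rfl <;> rcases hb with rfl | rfl <;> simp), hf.map_mul' y hy z hz]
      rcases ha with rfl | rfl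
      · rfl
      · rw [conjMat_neg]
  have houter : ∀ c : ZMod p, c ≠ 0 →
      ∃ a, a.1.det = ZMod.castHom (dvd_refl p) K c ∧ EquivAt (plusMinus H) fp a := by
    intro c hc
    obtain ⟨g, hg⟩ := hdetSurj (Units.mk0 c hc)
    refine ⟨ρ g, by simpa using hg, ?_, ψ g, ?_⟩
    · rintro x ⟨_, ⟨h, hh, rfl⟩, hx⟩
      refine ⟨_, ⟨g * h * g⁻¹, ‹Γn.Normal›.conj_mem h hh g, rfl⟩, ?_⟩
      rcases hx with rfl | rfl <;> simp
    · rintro x ⟨_, ⟨h, hh, rfl⟩, hx⟩
      have hconj := ‹Γn.Normal›.conj_mem h hh g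
      have e1 : fp (ρ g * x * (ρ g)⁻¹) = ψ (g * h * g⁻¹) := by
        rw [hfp _ (ρ (g * h * g⁻¹)) ⟨_, hconj, rfl⟩ (by rcases hx with rfl | rfl <;> simp),
          hfρ _ hconj]
      have e2 : fp x = ψ h := by rw [hfp x _ ⟨h, hh, rfl⟩ hx, hfρ h hh]
      have e3 : conjMat (ρ g * x * (ρ g)⁻¹) (ψ g) = conjMat (ρ (g * h * g⁻¹)) (ψ g) := by
        rcases hx with rfl | rfl <;> simp [conjMat_neg]
      have hginv : (ρ g).1.det • conjMat (ρ g) (ψ g⁻¹) = -ψ g := by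
        have := hψ g g⁻¹
        rw [mul_inv_cancel, hψ1] at this
        exact eq_neg_of_add_eq_zero_right this.symm
      have e4 : conjMat (ρ (g * h * g⁻¹)) (-ψ g) =
          (ρ g).1.det • conjMat (ρ (g * h)) (ψ g⁻¹) := by
        rw [← hginv, map_smul, ← conjMat_mul, ← map_mul, show g * h * g⁻¹ * g = g * h by group]
      rw [e1, e2, e3, hψ (g * h) g⁻¹, hψ g h, map_mul ρ g h, Units.val_mul, Matrix.det_mul,
        hdet1 h hh, mul_one, sub_eq_add_neg, ← map_neg, ← map_mul ρ g h, ← e4]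
  have hnegmem : ∃ z ∈ plusMinus H, z.1 = -1 :=
    ⟨-1, ⟨1, one_mem H, Or.inr rfl⟩, by simp⟩
  have hdetp : ∀ x ∈ plusMinus H, x.1.det = 1 := by
    rintro x ⟨y, hy, rfl | rfl⟩
    · exact hdet _ hy
    · rw [Units.val_neg, Matrix.det_neg, hdet _ hy]; simp
  obtain ⟨X, hX, hXv⟩ := isBdry_of_noLine hp hdetp (hno.mono le_plusMinus) hnegmem hfpc houter
  have hXΓ : ∀ h ∈ Γn, ψ h = conjMat (ρ h) X - X := fun h hh => by
    rw [← hfρ h hh, ← hfp (ρ h) (ρ h) ⟨h, hh, rfl⟩ (Or.inl rfl)]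
    exact hXv _ (le_plusMinus ⟨h, hh, rfl⟩)
  refine ⟨X, hX, fun g => ?_⟩
  have hD : ψ g - ((ρ g).1.det • conjMat (ρ g) X - X) = 0 := by
    refine eq_zero_of_forall_commute h2 hno (by simp [hψ0, hX]) ?_
    rintro _ ⟨h, hh, rfl⟩
    rw [← conjMat_eq_iff]
    have hh' : g⁻¹ * h * g ∈ Γn := by
      have := ‹Γn.Normal›.conj_mem h hh g⁻¹
      simpa using this
    have e : ψ (h * g) = ψ g + (ρ g).1.det • conjMat (ρ g) (conjMat (ρ (g⁻¹ * h * g)) X - X) := by
      rw [show h * g = g * (g⁻¹ * h * g) by group, hψ, hXΓ _ hh']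
    rw [hψΓ h hh, hXΓ h hh, map_sub, ← conjMat_mul, ← map_mul,
      show g * (g⁻¹ * h * g) = h * g by group, map_mul, conjMat_mul] at e
    rw [map_sub, map_sub, map_smul]
    linear_combination (norm := module) e
  exact sub_eq_zero.mp hD

end Fermat.Agent.ClassField.TWElement
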