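import Fermat.Agent.ClassField.S56.TW.Conj

/-!
# Cocycles with values in traceless matrices
-/

set_option autoImplicit false

open Matrix

namespace Fermat.Agent.ClassField.TWElement

variable {K : Type*} [Field K] {H : Subgroup (GL (Fin 2) K)} {f : GL (Fin 2) K → M2 K}

/-- A traceless cocycle on a subgroup for conjugation. -/
structure IsCocycle (H : Subgroup (GL (Fin 2) K)) (f : GL (Fin 2) K → M2 K) : Prop where
  trace_eq : ∀ a ∈ H, (f a).trace = 0
  map_mul' : ∀ a ∈ H, ∀ b ∈ H, f (a * b) = f a + conjMat a (f b)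

/-- A coboundary. -/
def IsBdry (H : Subgroup (GL (Fin 2) K)) (f : GL (Fin 2) K → M2 K) : Prop :=
  ∃ X : M2 K, X.trace = 0 ∧ ∀ a ∈ H, f a = conjMat a X - X

/-- Compatibility of a cocycle with an element normalising the subgroup. -/
def EquivAt (H : Subgroup (GL (Fin 2) K)) (f : GL (Fin 2) K → M2 K) (g : GL (Fin 2) K) : Prop :=
  (∀ x ∈ H, g * x * g⁻¹ ∈ H) ∧ ∃ P : M2 K, ∀ x ∈ H,
    f (g * x * g⁻¹) = P + g.1.det • conjMat g (f x) - conjMat (g * x * g⁻¹) P

namespace IsCocycle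

variable (hf : IsCocycle H f)
include hf

lemma map_one' : f 1 = 0 := by
  have h := hf.map_mul' 1 (one_mem _) 1 (one_mem _)
  rw [mul_one, conjMat_one] at h
  simpa using h

lemma map_inv' {a : GL (Fin 2) K} (ha : a ∈ H) : f a⁻¹ = -conjMat a⁻¹ (f a) := by
  have h := hf.map_mul' a⁻¹ (inv_mem ha) a ha
  rw [inv_mul_cancel, hf.map_one'] at h
  exact eq_neg_of_add_eq_zero_left h.symm

lemma map_conj {g x : GL (Fin 2) K} (hg : g ∈ H) (hx : x ∈ H) :
    f (g * x * g⁻¹) = f g + conjMat g (f x) - conjMat (g * x * g⁻¹) (f g) := by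
  rw [hf.map_mul' _ (mul_mem hg hx) _ (inv_mem hg), hf.map_mul' g hg x hx, hf.map_inv' hg, map_neg,
    ← conjMat_mul, sub_eq_add_neg]

lemma sub_bdry {X : M2 K} (hX : X.trace = 0) :
    IsCocycle H fun a => f a - (conjMat a X - X) where
  trace_eq a ha := by simp [hf.trace_eq a ha, hX]
  map_mul' a ha b hb := by
    simp only [hf.map_mul' a ha b hb, conjMat_mul, map_sub]
    abel

/-- A cocycle vanishing on a subgroup of invertible index is a coboundary. -/
theorem isBdry_of_vanish [Finite H] (P : Subgroup H) (hP : ((P.index : ℕ) : K) ≠ 0)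
    (h0 : ∀ u ∈ P, f (u : GL (Fin 2) K) = 0) : IsBdry H f := by
  classical
  letI : Fintype (H ⧸ P) := Fintype.ofFinite _
  let F : H ⧸ P → M2 K := Quotient.lift (fun a : H => f a.1) fun a b hab => by
    have hab' : a⁻¹ * b ∈ P := QuotientGroup.leftRel_apply.mp hab
    have hb : (b : GL (Fin 2) K) = a.1 * (a⁻¹ * b : H).1 := by simp
    show f a.1 = f b.1
    rw [hb, hf.map_mul' _ a.2 _ (a⁻¹ * b : H).2, h0 _ hab', map_zero, add_zero]
  have hF : ∀ (a : H) (q : H ⧸ P), F (a • q) = f a.1 + conjMat a.1 (F q) := by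
    intro a q
    induction q using Quotient.inductionOn with
    | h b => exact hf.map_mul' _ a.2 _ b.2
  set S := ∑ q, F q
  have htrS : S.trace = 0 := by
    rw [Matrix.trace_sum]
    refine Finset.sum_eq_zero fun q _ => ?_
    induction q using Quotient.inductionOn with
    | h b => exact hf.trace_eq _ b.2
  refine ⟨-((P.index : K)⁻¹ • S), by simp [htrS], fun a ha => ?_⟩
  have hS : S = (P.index : K) • f a + conjMat a S := by
    conv_lhs => rw [show S = ∑ q, F ((⟨a, ha⟩ : H) • q) from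
      (Fintype.sum_equiv (MulAction.toPerm (⟨a, ha⟩ : H)) _ _ fun q => rfl).symm]
    rw [Finset.sum_congr rfl fun q _ => hF _ q, Finset.sum_add_distrib, ← map_sum,
      Finset.sum_const, Finset.card_univ, ← Nat.card_eq_fintype_card, Nat.cast_smul_eq_nsmul]
    rfl
  rw [map_neg, map_smul, sub_neg_eq_add, neg_add_eq_sub, ← smul_sub]
  nth_rw 1 [hS]
  rw [add_sub_cancel_right, inv_smul_smul₀ hP]

/-- Change of coordinates. -/
lemma cnj (g : GL (Fin 2) K) :
    IsCocycle (cnj g H) fun y => conjMat g⁻¹ (f (g * y * g⁻¹)) where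
  trace_eq a ha := by simp [hf.trace_eq _ (mem_cnj.mp ha)]
  map_mul' a ha b hb := by
    have e : g * (a * b) * g⁻¹ = (g * a * g⁻¹) * (g * b * g⁻¹) := by group
    simp only [e, hf.map_mul' _ (mem_cnj.mp ha) _ (mem_cnj.mp hb), map_add]
    congr 1
    rw [← conjMat_mul, ← conjMat_mul]
    congr 2
    group

end IsCocycle

lemma isBdry_of_cnj {g : GL (Fin 2) K}
    (h : IsBdry (cnj g H) fun y => conjMat g⁻¹ (f (g * y * g⁻¹))) : IsBdry H f := by
  obtain ⟨X, hX, hval⟩ := h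
  refine ⟨conjMat g X, by simp [hX], fun a ha => ?_⟩
  have h1 := congrArg (conjMat g) (hval _ (inv_conj_mem_cnj (g := g) ha))
  simp only [conjMat_self_inv, map_sub, show g * (g⁻¹ * a * g) * g⁻¹ = a by group] at h1
  rw [h1, ← conjMat_mul, ← conjMat_mul]
  congr 2
  group

lemma EquivAt.cnj {a : GL (Fin 2) K} (h : EquivAt H f a) (g : GL (Fin 2) K) :
    EquivAt (cnj g H) (fun y => conjMat g⁻¹ (f (g * y * g⁻¹))) (g⁻¹ * a * g) := by
  obtain ⟨hn, P, hP⟩ := h
  refine ⟨fun x hx => ?_, conjMat g⁻¹ P, fun x hx => ?_⟩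
  · rw [mem_cnj]
    have e : g * (g⁻¹ * a * g * x * (g⁻¹ * a * g)⁻¹) * g⁻¹ = a * (g * x * g⁻¹) * a⁻¹ := by group
    rw [e]; exact hn _ hx
  · have e : g * (g⁻¹ * a * g * x * (g⁻¹ * a * g)⁻¹) * g⁻¹ = a * (g * x * g⁻¹) * a⁻¹ := by group
    have hdetg : (g⁻¹ * a * g).1.det = a.1.det := by
      rw [Units.val_mul, Units.val_mul, Matrix.det_mul, Matrix.det_mul, mul_right_comm,
        ← Matrix.det_mul, ← Units.val_mul, inv_mul_cancel, Units.val_one, Matrix.det_one, one_mul]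
    simp only [e, hP _ (mem_cnj.mp hx), map_add, map_sub, map_smul, hdetg, ← conjMat_mul]
    rw [show g⁻¹ * (a * (g * x * g⁻¹) * a⁻¹) = g⁻¹ * a * g * x * (g⁻¹ * a * g)⁻¹ * g⁻¹ by group,
      show g⁻¹ * a * g * g⁻¹ = g⁻¹ * a by group]

/-- Left multiplication by the subgroup preserves compatibility. -/
lemma EquivAt.inv_mul (hf : IsCocycle H f) (hdet : ∀ h ∈ H, h.1.det = 1) {a x : GL (Fin 2) K}
    (h : EquivAt H f a) (hx : x ∈ H) : EquivAt H f (x⁻¹ * a) := by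
  obtain ⟨hn, P, hP⟩ := h
  refine ⟨fun z hz => ?_, f x⁻¹ + conjMat x⁻¹ P, fun z hz => ?_⟩
  · have e : x⁻¹ * a * z * (x⁻¹ * a)⁻¹ = x⁻¹ * (a * z * a⁻¹) * x⁻¹⁻¹ := by group
    rw [e]; exact mul_mem (mul_mem (inv_mem hx) (hn z hz)) (inv_mem (inv_mem hx))
  · have e : x⁻¹ * a * z * (x⁻¹ * a)⁻¹ = x⁻¹ * (a * z * a⁻¹) * x⁻¹⁻¹ := by group
    have hd : (x⁻¹ * a).1.det = a.1.det := by
      rw [Units.val_mul, Matrix.det_mul, hdet _ (inv_mem hx), one_mul]
    rw [e, hf.map_conj (inv_mem hx) (hn z hz), hP z hz, hd, map_sub, map_add, map_add, map_smul,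
      ← conjMat_mul x⁻¹ a, ← conjMat_mul, ← conjMat_mul]
    rw [show x⁻¹ * (a * z * a⁻¹) * x⁻¹⁻¹ * x⁻¹ = x⁻¹ * (a * z * a⁻¹) by group]
    abel

/-- Conjugation by an upper triangular matrix on traceless matrices. -/
lemma conjMat_borel {g : GL (Fin 2) K} (hg : g.1 1 0 = 0) {M : M2 K} (hM : M.trace = 0) :
    conjMat g M 1 0 = g.1 1 1 / g.1 0 0 * M 1 0 ∧
      conjMat g M 0 0 = M 0 0 + g.1 0 1 / g.1 0 0 * M 1 0 ∧
      conjMat g M 0 1 = g.1 0 0 / g.1 1 1 * M 0 1 - 2 * (g.1 0 1 / g.1 1 1) * M 0 0 -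
        g.1 0 1 ^ 2 / (g.1 0 0 * g.1 1 1) * M 1 0 := by
  obtain ⟨ha, hd⟩ := borel_diag_ne_zero (a := g) hg
  have hinv : g⁻¹.1 = !![(g.1 0 0)⁻¹, -(g.1 0 1) / (g.1 0 0 * g.1 1 1); 0, (g.1 1 1)⁻¹] := by
    refine Units.inv_eq_of_mul_eq_one_right ?_
    ext i j
    fin_cases i <;> fin_cases j <;> simp [Matrix.mul_apply, Fin.sum_univ_two, hg, ha, hd] <;>
      field_simp <;> ring
  have hM11 : M 1 1 = -M 0 0 := by rw [Matrix.trace_fin_two] at hM; linear_combination hM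
  refine ⟨?_, ?_, ?_⟩ <;>
    simp [conjMat_apply, hinv, Matrix.mul_apply, Fin.sum_univ_two, hg, hM11] <;> field_simp <;> ring

end Fermat.Agent.ClassField.TWElement
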