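import Fermat.Agent.ClassField.S56.TW.Mat2
import Mathlib.Algebra.Group.Pointwise.Finset.Basic
import Mathlib.FieldTheory.IsAlgClosed.Basic
import Mathlib.LinearAlgebra.Matrix.ToLinearEquiv
import Mathlib.LinearAlgebra.Matrix.NonsingularInverse

/-!
# Conjugation in `GL₂` and common eigenlines
-/

set_option autoImplicit false

open Matrix

namespace Fermat.Agent.ClassField.TWElement

variable {K : Type*} [Field K]

/-- Conjugation of a matrix. -/
def conjMat (a : GL (Fin 2) K) : M2 K →ₗ[K] M2 K where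
  toFun M := a.1 * M * (a⁻¹).1
  map_add' M N := by rw [mul_add, add_mul]
  map_smul' r M := by simp

lemma conjMat_apply (a : GL (Fin 2) K) (M : M2 K) : conjMat a M = a.1 * M * (a⁻¹).1 := rfl

@[simp] lemma conjMat_one (M : M2 K) : conjMat 1 M = M := by simp [conjMat_apply]

lemma conjMat_mul (a b : GL (Fin 2) K) (M : M2 K) : conjMat (a * b) M = conjMat a (conjMat b M) := by
  simp [conjMat_apply, _root_.mul_inv_rev, mul_assoc]

@[simp] lemma conjMat_inv_self (a : GL (Fin 2) K) (M : M2 K) : conjMat a⁻¹ (conjMat a M) = M := by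
  rw [← conjMat_mul, inv_mul_cancel, conjMat_one]

@[simp] lemma conjMat_self_inv (a : GL (Fin 2) K) (M : M2 K) : conjMat a (conjMat a⁻¹ M) = M := by
  rw [← conjMat_mul, mul_inv_cancel, conjMat_one]

@[simp] lemma trace_conjMat (a : GL (Fin 2) K) (M : M2 K) : (conjMat a M).trace = M.trace := by
  rw [conjMat_apply, Matrix.trace_mul_comm, ← mul_assoc]
  simp

lemma conjMat_eq_iff (a : GL (Fin 2) K) (M : M2 K) : conjMat a M = M ↔ a.1 * M = M * a.1 := by
  constructor
  · intro h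
    have h' := congrArg (fun N => N * a.1) h
    simpa [conjMat_apply, mul_assoc] using h'
  · intro h
    rw [conjMat_apply, h, mul_assoc]
    simp

lemma val_conj (g x : GL (Fin 2) K) : (g * x * g⁻¹).1 = conjMat g x.1 := rfl

/-- The conjugate subgroup in new coordinates. -/
def cnj (g : GL (Fin 2) K) (H : Subgroup (GL (Fin 2) K)) : Subgroup (GL (Fin 2) K) :=
  H.comap (MulAut.conj g).toMonoidHom

lemma mem_cnj {g y : GL (Fin 2) K} {H : Subgroup (GL (Fin 2) K)} :
    y ∈ cnj g H ↔ g * y * g⁻¹ ∈ H := Iff.rfl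

lemma inv_conj_mem_cnj {g x : GL (Fin 2) K} {H : Subgroup (GL (Fin 2) K)} (hx : x ∈ H) :
    g⁻¹ * x * g ∈ cnj g H := by
  rw [mem_cnj]; simpa [mul_assoc] using hx

instance finite_cnj (g : GL (Fin 2) K) (H : Subgroup (GL (Fin 2) K)) [Finite H] :
    Finite (cnj g H) :=
  Finite.of_injective (fun y : cnj g H => (⟨g * y.1 * g⁻¹, y.2⟩ : H)) fun y z h =>
    Subtype.ext (mul_left_cancel (mul_right_cancel (Subtype.ext_iff.mp h)))

lemma det_cnj {g : GL (Fin 2) K} {H : Subgroup (GL (Fin 2) K)} (hdet : ∀ h ∈ H, h.1.det = 1) :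
    ∀ h ∈ cnj g H, h.1.det = 1 := by
  intro y hy
  have : (g * y * g⁻¹).1.det = 1 := hdet _ hy
  rwa [Units.val_mul, Units.val_mul, Matrix.det_mul, Matrix.det_mul, mul_right_comm,
    ← Matrix.det_mul, ← Units.val_mul, mul_inv_cancel, Units.val_one, Matrix.det_one, one_mul]
    at this

/-- No common eigenline. -/
def NoLine (H : Subgroup (GL (Fin 2) K)) : Prop :=
  ∀ v : Fin 2 → K, v ≠ 0 → ∃ h ∈ H, ∀ c : K, h.1.mulVec v ≠ c • v

lemma NoLine.mono {H H' : Subgroup (GL (Fin 2) K)} (h : NoLine H) (hle : H ≤ H') : NoLine H' :=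
  fun v hv => let ⟨x, hx, hxv⟩ := h v hv; ⟨x, hle hx, hxv⟩

lemma noLine_cnj {H : Subgroup (GL (Fin 2) K)} (h : NoLine H) (g : GL (Fin 2) K) :
    NoLine (cnj g H) := by
  intro v hv
  have hinj : ∀ w, g⁻¹.1.mulVec (g.1.mulVec w) = w := fun w => by
    rw [Matrix.mulVec_mulVec, ← Units.val_mul, inv_mul_cancel, Units.val_one, Matrix.one_mulVec]
  obtain ⟨x, hx, hxv⟩ := h (g.1.mulVec v) fun e => hv (by rw [← hinj v, e, Matrix.mulVec_zero])
  refine ⟨g⁻¹ * x * g, inv_conj_mem_cnj hx, fun c e => hxv c ?_⟩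
  have e' := congrArg g.1.mulVec e
  rwa [Matrix.mulVec_mulVec, Matrix.mulVec_smul, ← Units.val_mul, ← mul_assoc, ← mul_assoc,
    mul_inv_cancel, one_mul, Units.val_mul, ← Matrix.mulVec_mulVec] at e'

lemma NoLine.exists_e10 {H : Subgroup (GL (Fin 2) K)} (h : NoLine H) : ∃ x ∈ H, x.1 1 0 ≠ 0 := by
  obtain ⟨x, hx, hxv⟩ := h ![1, 0] (fun e => one_ne_zero (congrFun e 0))
  refine ⟨x, hx, fun e => hxv (x.1 0 0) (funext fun i => ?_)⟩
  fin_cases i <;> simp [Matrix.mulVec, dotProduct, Fin.sum_univ_two, e]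

lemma NoLine.exists_e01 {H : Subgroup (GL (Fin 2) K)} (h : NoLine H) : ∃ x ∈ H, x.1 0 1 ≠ 0 := by
  obtain ⟨x, hx, hxv⟩ := h ![0, 1] (fun e => one_ne_zero (congrFun e 1))
  refine ⟨x, hx, fun e => hxv (x.1 1 1) (funext fun i => ?_)⟩
  fin_cases i <;> simp [Matrix.mulVec, dotProduct, Fin.sum_univ_two, e]

lemma det_sub_scalar (M : M2 K) (μ : K) :
    (M - μ • (1 : M2 K)).det = M.det - μ * M.trace + μ ^ 2 := by
  simp [Matrix.det_fin_two, Matrix.trace_fin_two]; ring

/-- An eigenvector over an algebraically closed field. -/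
lemma exists_eigenvector [IsAlgClosed K] (h2 : (2 : K) ≠ 0) (M : M2 K) :
    ∃ μ : K, ∃ v : Fin 2 → K, v ≠ 0 ∧ M.mulVec v = μ • v := by
  obtain ⟨r, hr⟩ := IsAlgClosed.exists_pow_nat_eq (M.trace ^ 2 - 4 * M.det) (n := 2) two_pos
  refine ⟨(M.trace + r) / 2, ?_⟩
  obtain ⟨v, hv, hMv⟩ := Matrix.exists_mulVec_eq_zero_iff.mpr
    (show (M - ((M.trace + r) / 2) • (1 : M2 K)).det = 0 by
      rw [det_sub_scalar]; field_simp; linear_combination hr)
  refine ⟨v, hv, ?_⟩
  rw [Matrix.sub_mulVec, Matrix.smul_mulVec, Matrix.one_mulVec, sub_eq_zero] at hMv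
  exact hMv

/-- A traceless matrix commuting with a group without common eigenline vanishes. -/
lemma eq_zero_of_forall_commute [IsAlgClosed K] (h2 : (2 : K) ≠ 0)
    {H : Subgroup (GL (Fin 2) K)} (hno : NoLine H) {M : M2 K} (htr : M.trace = 0)
    (hc : ∀ h ∈ H, h.1 * M = M * h.1) : M = 0 := by
  by_cases hns : M 0 1 ≠ 0 ∨ M 1 0 ≠ 0 ∨ M 0 0 ≠ M 1 1
  · exfalso
    obtain ⟨μ, v, hv, hMv⟩ := exists_eigenvector h2 M
    obtain ⟨x, hx, hxv⟩ := hno v hv
    obtain ⟨α, β, he⟩ := exists_eq_smul_add_of_commute hns (hc x hx).symm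
    apply hxv (α + β * μ)
    rw [he, Matrix.add_mulVec, Matrix.smul_mulVec, Matrix.smul_mulVec, Matrix.one_mulVec, hMv,
      smul_smul, ← add_smul]
  · push Not at hns
    obtain ⟨h01, h10, h00⟩ := hns
    have h0 : M 0 0 = 0 := by
      rw [Matrix.trace_fin_two, ← h00] at htr
      exact (mul_eq_zero_iff_left h2).mp (by linear_combination htr)
    ext i j
    fin_cases i <;> fin_cases j <;> simp [h01, h10, h0, ← h00]

/-- A basis starting with two given vectors. -/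
lemma exists_gl_of_cols {v w : Fin 2 → K} (h : v 0 * w 1 - w 0 * v 1 ≠ 0) :
    ∃ g : GL (Fin 2) K, g.1.mulVec ![1, 0] = v ∧ g.1.mulVec ![0, 1] = w := by
  refine ⟨Matrix.GeneralLinearGroup.mkOfDetNeZero !![v 0, w 0; v 1, w 1]
    (by simpa [Matrix.det_fin_two] using h), ?_, ?_⟩ <;>
  · funext i
    fin_cases i <;> simp [Matrix.mulVec, dotProduct, Fin.sum_univ_two]

/-- Completing a non-zero vector to a basis. -/
lemma exists_gl_of_col {v : Fin 2 → K} (hv : v ≠ 0) :
    ∃ g : GL (Fin 2) K, g.1.mulVec ![1, 0] = v := by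
  by_cases h : v 0 = 0
  · have h1 : v 1 ≠ 0 := fun h1 => hv (funext fun i => by fin_cases i <;> simp [h, h1])
    obtain ⟨g, hg, -⟩ := exists_gl_of_cols (v := v) (w := ![1, 0]) (by simpa [h] using h1)
    exact ⟨g, hg⟩
  · obtain ⟨g, hg, -⟩ := exists_gl_of_cols (v := v) (w := ![0, 1]) (by simpa using h)
    exact ⟨g, hg⟩

/-- In coordinates where the first vector is an eigenvector the matrix is upper triangular. -/
lemma conj_e10_eq_zero {g x : GL (Fin 2) K} {v : Fin 2 → K} {μ : K} (hg : g.1.mulVec ![1, 0] = v)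
    (hx : x.1.mulVec v = μ • v) :
    (g⁻¹ * x * g).1 1 0 = 0 ∧ (g⁻¹ * x * g).1 0 0 = μ := by
  have h : (g⁻¹ * x * g).1.mulVec ![1, 0] = μ • ![1, 0] := by
    rw [Units.val_mul, Units.val_mul, ← Matrix.mulVec_mulVec, hg, ← Matrix.mulVec_mulVec, hx,
      Matrix.mulVec_smul, ← hg, Matrix.mulVec_mulVec, ← Units.val_mul, inv_mul_cancel,
      Units.val_one, Matrix.one_mulVec]
  exact ⟨by simpa [Matrix.mulVec, dotProduct, Fin.sum_univ_two] using congrFun h 1,
    by simpa [Matrix.mulVec, dotProduct, Fin.sum_univ_two] using congrFun h 0⟩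

/-- A non-trivial unipotent element fixes a line. -/
lemma exists_fixed_of_trace_two {M : M2 K} (hdet : M.det = 1) (htr : M.trace = 2) :
    ∃ v : Fin 2 → K, v ≠ 0 ∧ M.mulVec v = (1 : K) • v := by
  obtain ⟨v, hv, hMv⟩ := Matrix.exists_mulVec_eq_zero_iff.mpr
    (show (M - (1 : K) • (1 : M2 K)).det = 0 by rw [det_sub_scalar, hdet, htr]; ring)
  refine ⟨v, hv, ?_⟩
  rw [Matrix.sub_mulVec, Matrix.smul_mulVec, Matrix.one_mulVec, sub_eq_zero] at hMv
  exact hMv

lemma unipotent_of_conj {g x : GL (Fin 2) K} {v : Fin 2 → K} (hg : g.1.mulVec ![1, 0] = v)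
    (hx : x.1.mulVec v = (1 : K) • v) (hdet : x.1.det = 1) : g⁻¹ * x * g ∈ unipotent K := by
  obtain ⟨h10, h00⟩ := conj_e10_eq_zero hg hx
  have hd : (g⁻¹ * x * g).1.det = 1 := by
    rw [Units.val_mul, Units.val_mul, Matrix.det_mul, Matrix.det_mul, mul_right_comm,
      ← Matrix.det_mul, ← Units.val_mul, inv_mul_cancel, Units.val_one, Matrix.det_one, one_mul,
      hdet]
  refine ⟨h10, h00, ?_⟩
  rw [Matrix.det_fin_two, h10, h00] at hd
  linear_combination hd

end Fermat.Agent.ClassField.TWElement
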