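import Fermat.Agent.ClassField.S56.TW.Vanish

/-!
# Vanishing of cocycles of an irreducible subgroup of `SL₂`
-/

set_option autoImplicit false

open Matrix

namespace Fermat.Agent.ClassField.TWElement

variable {K : Type*} [Field K] {p : ℕ} [Fact p.Prime] [CharP K p]
  {H : Subgroup (GL (Fin 2) K)} {f : GL (Fin 2) K → M2 K}

private lemma zmod_five_facts : (2 : ZMod 5) ≠ 0 ∧ ∀ m : ZMod 5, m ^ 2 ≠ 2 := by decide

omit [Fact p.Prime] [CharP K p] in
lemma conjMat_unipotent {u : GL (Fin 2) K} (hu : u ∈ unipotent K) (M : M2 K) :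
    conjMat u M 1 0 = M 1 0 ∧ conjMat u M 0 0 = M 0 0 + u.1 0 1 * M 1 0 ∧
      conjMat u M 0 1 = M 0 1 + u.1 0 1 * (M 1 1 - M 0 0) - u.1 0 1 ^ 2 * M 1 0 := by
  obtain ⟨h10, h00, h11⟩ := mem_unipotent.mp hu
  have hinv : u⁻¹.1 = !![1, -(u.1 0 1); 0, 1] := by
    refine Units.inv_eq_of_mul_eq_one_right ?_
    ext i j
    fin_cases i <;> fin_cases j <;> simp [Matrix.mul_apply, Fin.sum_univ_two, h10, h00, h11]
  refine ⟨?_, ?_, ?_⟩ <;>
    simp [conjMat_apply, hinv, Matrix.mul_apply, Fin.sum_univ_two, h10, h00, h11] <;> ring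

/-- The three entries. -/
def e10 (f : GL (Fin 2) K → M2 K) (u : H) : K := f u.1 1 0

/-- The diagonal entry. -/
def e00 (f : GL (Fin 2) K → M2 K) (u : H) : K := f u.1 0 0

/-- The upper entry. -/
def e01 (f : GL (Fin 2) K → M2 K) (u : H) : K := f u.1 0 1

omit [Fact p.Prime] [CharP K p] in
lemma cocycle_unipotent (hf : IsCocycle H f) {u v : H} (hu : u ∈ PH H) :
    e10 f (u * v) = e10 f u + e10 f v ∧
      e00 f (u * v) = e00 f u + e00 f v + mat H u 0 1 * e10 f v ∧
      e01 f (u * v) = e01 f u + e01 f v - 2 * mat H u 0 1 * e00 f v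
        - mat H u 0 1 ^ 2 * e10 f v := by
  have htr : (f v.1) 1 1 = -(f v.1) 0 0 := by
    have := hf.trace_eq _ v.2
    rw [Matrix.trace_fin_two] at this; linear_combination this
  obtain ⟨h1, h2, h3⟩ := conjMat_unipotent (u := (u : GL (Fin 2) K)) hu (f v.1)
  simp only [e10, e00, e01, Subgroup.coe_mul, hf.map_mul' _ u.2 _ v.2, Matrix.add_apply, h1, h2, h3,
    htr]
  exact ⟨trivial, by ring, by ring⟩

omit [Fact p.Prime] [CharP K p] in
/-- The effect of an upper triangular element. -/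
lemma equiv_borel {g : GL (Fin 2) K} {P : M2 K} (hg : g.1 1 0 = 0) (hf : IsCocycle H f)
    (hP : ∀ x ∈ H, f (g * x * g⁻¹) = P + g.1.det • conjMat g (f x) - conjMat (g * x * g⁻¹) P)
    {u : H} (hu : u ∈ PH H) (hm : g * u.1 * g⁻¹ ∈ H) :
    (⟨_, hm⟩ : H) ∈ PH H ∧ mat H ⟨_, hm⟩ 0 1 = g.1 0 0 / g.1 1 1 * mat H u 0 1 ∧
      e10 f (⟨_, hm⟩ : H) = g.1.det * (g.1 1 1 / g.1 0 0) * e10 f u ∧
      (e10 f u = 0 → e00 f u = 0 →
        e00 f (⟨_, hm⟩ : H) = -(g.1 0 0 / g.1 1 1 * mat H u 0 1) * P 1 0 ∧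
        e01 f (⟨_, hm⟩ : H) = g.1.det * (g.1 0 0 / g.1 1 1) * e01 f u
          - g.1 0 0 / g.1 1 1 * mat H u 0 1 * (P 1 1 - P 0 0)
          + (g.1 0 0 / g.1 1 1 * mat H u 0 1) ^ 2 * P 1 0) := by
  obtain ⟨hu', hx'⟩ :
      g * u.1 * g⁻¹ ∈ unipotent K ∧
        (g * u.1 * g⁻¹).1 0 1 = g.1 0 0 / g.1 1 1 * mat H u 0 1 := conj_unipotent_e01 hg hu
  obtain ⟨a1, a2, a3⟩ := conjMat_borel hg (hf.trace_eq _ u.2)
  obtain ⟨b1, b2, b3⟩ := conjMat_unipotent hu' P
  rw [hx'] at b2 b3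
  refine ⟨hu', hx', ?_, fun h1 h2 => ?_⟩
  · simp only [e10, hP _ u.2, Matrix.sub_apply, Matrix.add_apply, Matrix.smul_apply, smul_eq_mul,
      a1, b1]
    ring
  · simp only [e10] at h1
    simp only [e00] at h2
    simp only [e00, e01, hP _ u.2, Matrix.sub_apply, Matrix.add_apply, Matrix.smul_apply,
      smul_eq_mul, a2, a3, b2, b3, h1, h2]
    exact ⟨by ring, by ring⟩

omit [Fact p.Prime] [CharP K p] in
lemma prop_of_cross {x₀ : K} (hx₀ : x₀ ≠ 0) {φ : H → K} {u₀ : H} (hu₀ : mat H u₀ 0 1 = x₀)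
    (hcross : ∀ u ∈ PH H, mat H u 0 1 * φ u₀ = x₀ * φ u) :
    ∀ u ∈ PH H, φ u = φ u₀ / x₀ * mat H u 0 1 := fun u hu => by
  field_simp
  linear_combination -(hcross u hu)

variable [Finite H] [IsAlgClosed K]

/-- A cocycle of an irreducible group with unipotent elements is a coboundary. -/
theorem isBdry_of_unipotent (hp : p ≠ 2) (hdet : ∀ h ∈ H, h.1.det = 1) (hno : NoLine H)
    (hneg : ∃ z ∈ H, z.1 = -1) (hf : IsCocycle H f)
    (houter : ∀ c : ZMod p, c ≠ 0 → ∃ a, a.1.det = ZMod.castHom (dvd_refl p) K c ∧ EquivAt H f a)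
    (hu : PH H ≠ ⊥) : IsBdry H f := by
  classical
  have h2 : (2 : K) ≠ 0 := two_ne hp
  obtain ⟨⟨u₀, hu₀⟩, hu₀'⟩ := (PH H).ne_bot_iff_exists_ne_one.mp hu
  set x₀ := mat H u₀ 0 1 with hx₀def
  have hx₀ : x₀ ≠ 0 := fun e => hu₀' (Subtype.ext (PH_ext hu₀ (one_mem _) (by
    rw [← hx₀def, e]; simp [mat_one])))
  -- the lower entry
  set κ := e10 f u₀ / x₀ with hκdef
  have h10 : ∀ u ∈ PH H, e10 f u = κ * mat H u 0 1 := by
    refine prop_of_cross hx₀ hx₀def.symm fun u hu' => ?_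
    have a := (cocycle_unipotent hf (v := u₀) hu').2.1
    have b := (cocycle_unipotent hf (v := u) hu₀).2.1
    rw [PH_comm hu' hu₀] at a
    rw [hx₀def]
    linear_combination b - a
  have hτ : Nat.card (PH H) ≤ Nat.card (diagHom H).range + 1 :=
    sub_one_le_card_torus H hdet hp hneg hu (BH_ne_top hno)
      (fun g hg => exists_conj_mem_PH (p := p) hp hdet hu g hg)
  have hPp : IsPGroup p (PH H) := fun u => ⟨1, Subtype.ext (Subtype.ext (by
    simpa using pow_char_eq_one_of_trace_two (p := p) (hdet _ u.1.2)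
      (trace_of_mem_PH H u.2)))⟩
  have hinH : ∀ g : H, ∀ u : H, (g : GL (Fin 2) K) * u * (g : GL (Fin 2) K)⁻¹ ∈ H := fun g u =>
    mul_mem (mul_mem g.2 u.2) (inv_mem g.2)
  have hinner : ∀ g : H, ∀ x ∈ H, f (g.1 * x * g.1⁻¹) =
      f g.1 + g.1.1.det • conjMat g.1 (f x) - conjMat (g.1 * x * g.1⁻¹) (f g.1) := fun g x hx => by
    rw [hdet _ g.2, one_smul, hf.map_conj g.2 hx]
  have hκ : κ = 0 := by
    by_cases hp3 : p = 3
    · have h3 : (3 : K) = 0 := by
        have := CharP.cast_eq_zero K p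
        rw [hp3] at this; exact_mod_cast this
      have hu3 : u₀ * (u₀ * u₀) = 1 := Subtype.ext (by
        have := pow_char_eq_one_of_trace_two (p := p) (hdet _ u₀.2) (trace_of_mem_PH H hu₀)
        rw [hp3, pow_succ', pow_two] at this
        simpa using this)
      obtain ⟨-, a2, b2⟩ := cocycle_unipotent hf (v := u₀) hu₀
      obtain ⟨-, -, b3⟩ := cocycle_unipotent hf (v := u₀ * u₀) hu₀
      rw [hu3, a2, b2, (cocycle_unipotent hf (v := u₀) hu₀).1] at b3
      simp only [e01, Subgroup.coe_one, hf.map_one', Matrix.zero_apply] at b3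
      rw [h10 u₀ hu₀, ← hx₀def] at b3
      have : κ * x₀ ^ 3 * (5 : K) = 0 := by
        linear_combination b3 + (f u₀.1 0 1 - 2 * x₀ * e00 f u₀) * h3
      refine (mul_eq_zero_iff_right (pow_ne_zero 3 hx₀)).mp
        ((mul_eq_zero_iff_right ?_).mp this)
      intro h5
      exact h2 (by linear_combination h5 - h3)
    · by_contra hκ0
      have hrel : ∀ g : GL (Fin 2) K, g.1 1 0 = 0 → ∀ P : M2 K,
          (∀ x ∈ H, f (g * x * g⁻¹) = P + g.1.det • conjMat g (f x) - conjMat (g * x * g⁻¹) P) →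
          g * u₀.1 * g⁻¹ ∈ H →
          (g.1 0 0 / g.1 1 1) = g.1.det * (g.1 1 1 / g.1 0 0) := by
        intro g hg P hP hm
        obtain ⟨c1, c2, c3, -⟩ := equiv_borel hg hf hP hu₀ hm
        rw [h10 _ c1, c2, h10 u₀ hu₀, ← hx₀def] at c3
        exact mul_right_cancel₀ (mul_ne_zero hκ0 hx₀) (by linear_combination c3)
      have h4 : (diagHom H).range ≤ rootsOfUnity 4 K := by
        rintro _ ⟨⟨g, hgH, hgb⟩, rfl⟩
        rw [mem_rootsOfUnity]
        apply Units.ext
        rw [Units.val_pow_eq_pow_val, diagHom_apply, Units.val_one]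
        obtain ⟨h11, h0⟩ := diag_of_mem_BH H hdet (g := ⟨g, hgH⟩) hgb
        have hr := hrel g hgb _ (hinner ⟨g, hgH⟩) (hinH ⟨g, hgH⟩ u₀)
        simp only [mat] at h11 h0
        rw [hdet g hgH, h11] at hr
        field_simp at hr
        show g.1 0 0 ^ 4 = 1
        linear_combination hr
      have hτ4 : Nat.card (diagHom H).range ≤ 4 := by
        have h := Subgroup.card_le_of_le h4
        exact h.trans (card_rootsOfUnity K 4)
      have hpq : p ∣ Nat.card (PH H) := p_dvd_card_of_isPGroup hPp hu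
      have hqpos : 0 < Nat.card (PH H) := Nat.card_pos
      have hple := Nat.le_of_dvd hqpos hpq
      have hp5 : p = 5 := by
        have h := (Fact.out : p.Prime)
        have : p ≤ 5 := by omega
        interval_cases p <;> first | rfl | omega | exact absurd rfl hp | exact absurd rfl hp3 | exact absurd h (by norm_num)
      have hq5 : Nat.card (PH H) = p := by omega
      have hgen : ∀ u ∈ PH H, ∃ n : ℕ, mat H u 0 1 = (n : K) * x₀ := by
        intro u hu'
        obtain ⟨n, hn⟩ := (mem_powers_of_prime_card hq5 (g := (⟨u₀, hu₀⟩ : PH H))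
          (g' := ⟨u, hu'⟩) hu₀')
        refine ⟨n, ?_⟩
        rw [hx₀def, ← PH_pow_e01 hu₀]
        congr 2
        exact (congrArg Subtype.val hn).symm
      subst hp5
      obtain ⟨a₁, ha₁, hae₁⟩ := houter (2 : ZMod 5) zmod_five_facts.1
      obtain ⟨hn₁, -⟩ := id hae₁
      have htr : (mat H ⟨a₁ * u₀.1 * a₁⁻¹, hn₁ _ u₀.2⟩).trace = 2 := by
        show ((a₁ * u₀.1 * a₁⁻¹).1).trace = 2
        rw [val_conj, trace_conjMat]
        exact trace_of_mem_PH H hu₀
      obtain ⟨x, hx⟩ := exists_conj_mem_PH (p := 5) hp hdet hu _ htr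
      set g := x.1⁻¹ * a₁ with hgdef
      obtain ⟨hng, P, hP⟩ := hae₁.inv_mul hf hdet x.2
      have hgu : g * u₀.1 * g⁻¹ ∈ unipotent K := by
        have : ((x⁻¹ * ⟨a₁ * u₀.1 * a₁⁻¹, hn₁ _ u₀.2⟩ * x : H) : GL (Fin 2) K) ∈ unipotent K := hx
        convert this using 1
        simp [hgdef, _root_.mul_inv_rev, mul_assoc]
      have hg : g.1 1 0 = 0 := by
        have e : g * u₀.1 = (g * u₀.1 * g⁻¹) * g := by group
        obtain ⟨w10, w00, w11⟩ := mem_unipotent.mp hgu
        have e' := congr_fun (congr_fun (congrArg (fun z : GL (Fin 2) K => z.1) e) 1) 1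
        simp only [Units.val_mul] at e'
        rw [Matrix.mul_apply, Fin.sum_univ_two, Matrix.mul_apply, Fin.sum_univ_two] at e'
        simp only [Units.val_mul] at w10 w11
        have v11 : u₀.1.1 1 1 = 1 := PH_e11 H hu₀
        rw [w10, w11, v11] at e'
        have : g.1 1 0 * x₀ = 0 := by
          rw [hx₀def]
          show g.1 1 0 * (u₀.1.1 0 1) = 0
          linear_combination e'
        exact (mul_eq_zero_iff_right hx₀).mp this
      have hm : g * u₀.1 * g⁻¹ ∈ H := hng _ u₀.2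
      have hr := hrel g hg P hP hm
      obtain ⟨c1, c2, -, -⟩ := equiv_borel hg hf hP hu₀ hm
      obtain ⟨n, hn⟩ := hgen _ c1
      rw [c2, ← hx₀def] at hn
      have hn' := mul_right_cancel₀ hx₀ hn
      have hdg : g.1.det = a₁.1.det := by
        rw [hgdef, Units.val_mul, Matrix.det_mul, hdet _ (inv_mem x.2), one_mul]
      obtain ⟨hga, hgd⟩ := borel_diag_ne_zero (a := g) hg
      have hsq : ((n : K)) ^ 2 = ((2 : ℕ) : K) := by
        rw [← hn']
        rw [hdg, ha₁, map_ofNat] at hr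
        push_cast
        field_simp at hr ⊢
        linear_combination hr
      rw [← Nat.cast_pow, CharP.natCast_eq_natCast K 5, ← ZMod.natCast_eq_natCast_iff] at hsq
      push_cast at hsq
      exact zmod_five_facts.2 _ hsq
  -- subtract a coboundary killing the diagonal entry
  have h10' : ∀ u ∈ PH H, e10 f u = 0 := fun u hu' => by rw [h10 u hu', hκ, zero_mul]
  set μ := e00 f u₀ / x₀ with hμdef
  have h00 : ∀ u ∈ PH H, e00 f u = μ * mat H u 0 1 := by
    refine prop_of_cross hx₀ hx₀def.symm fun u hu' => ?_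
    have a := (cocycle_unipotent hf (v := u₀) hu').2.2
    have b := (cocycle_unipotent hf (v := u) hu₀).2.2
    rw [PH_comm hu' hu₀, h10' u₀ hu₀] at a
    rw [h10' u hu'] at b
    rw [hx₀def]
    exact mul_left_cancel₀ h2 (by linear_combination a - b)
  set X₁ : M2 K := !![0, 0; μ, 0] with hX₁
  have hX₁tr : X₁.trace = 0 := by simp [hX₁, Matrix.trace_fin_two]
  set f₁ : GL (Fin 2) K → M2 K := fun a => f a - (conjMat a X₁ - X₁) with hf₁def
  have hf₁ : IsCocycle H f₁ := hf.sub_bdry hX₁tr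
  have hf₁0 : ∀ u ∈ PH H, e10 f₁ u = 0 ∧ e00 f₁ u = 0 := fun u hu' => by
    obtain ⟨b1, b2, -⟩ := conjMat_unipotent (u := (u : GL (Fin 2) K)) hu' X₁
    have a1 := h10' u hu'
    have a2 := h00 u hu'
    simp only [e10] at a1
    simp only [e00] at a2
    simp only [e10, e00, hf₁def, Matrix.sub_apply, b1, b2, a1, a2]
    constructor
    · simp
    · simp [hX₁, mul_comm]
  -- multipliers
  let ok : K → Prop := fun ζ => ∀ u ∈ PH H, ∃ w : H, w ∈ PH H ∧
    mat H w 0 1 = ζ * mat H u 0 1 ∧ e01 f₁ w = ζ * e01 f₁ u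
  have hadd : ∀ u v : H, u ∈ PH H → v ∈ PH H → e01 f₁ (u * v) = e01 f₁ u + e01 f₁ v :=
    fun u v hu' hv => by
      rw [(cocycle_unipotent hf₁ (v := v) hu').2.2, (hf₁0 v hv).1, (hf₁0 v hv).2]; ring
  have hone : e01 f₁ (1 : H) = 0 := by simp [e01, hf₁.map_one']
  have hneg' : ∀ u ∈ PH H, mat H u⁻¹ 0 1 = -mat H u 0 1 ∧ e01 f₁ u⁻¹ = -e01 f₁ u := fun u hu' => by
    have a := PH_mul_e01 hu' (inv_mem hu')
    have b := hadd u u⁻¹ hu' (inv_mem hu')
    rw [mul_inv_cancel] at a b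
    simp [mat_one] at a
    rw [hone] at b
    exact ⟨by linear_combination -a, by linear_combination -b⟩
  let F : Subring K :=
    { carrier := {ζ | ok ζ}
      mul_mem' := fun {a b} ha hb u hu' => by
        obtain ⟨w, hw, hw1, hw2⟩ := hb u hu'
        obtain ⟨z, hz, hz1, hz2⟩ := ha w hw
        exact ⟨z, hz, by rw [hz1, hw1, mul_assoc], by rw [hz2, hw2, mul_assoc]⟩
      one_mem' := fun u hu' => ⟨u, hu', (one_mul _).symm, (one_mul _).symm⟩
      add_mem' := fun {a b} ha hb u hu' => by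
        obtain ⟨w, hw, hw1, hw2⟩ := ha u hu'
        obtain ⟨z, hz, hz1, hz2⟩ := hb u hu'
        exact ⟨w * z, mul_mem hw hz, by rw [PH_mul_e01 hw hz, hw1, hz1, add_mul],
          by rw [hadd w z hw hz, hw2, hz2, add_mul]⟩
      zero_mem' := fun u _ => ⟨1, one_mem _, by simp [mat_one], by simp [hone]⟩
      neg_mem' := fun {a} ha u hu' => by
        obtain ⟨w, hw, hw1, hw2⟩ := ha u hu'
        exact ⟨w⁻¹, inv_mem hw, by rw [(hneg' w hw).1, hw1, neg_mul],
          by rw [(hneg' w hw).2, hw2, neg_mul]⟩ }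
  have hsqmem : ∀ g : H, g ∈ BH H → mat H g 0 0 ^ 2 ∈ F := by
    intro g hg
    obtain ⟨h11, h0⟩ := diag_of_mem_BH H hdet hg
    set l := mat H g 0 0 ^ 2 with hl
    have hl' : (g : GL (Fin 2) K).1 0 0 / (g : GL (Fin 2) K).1 1 1 = l := by
      show mat H g 0 0 / mat H g 1 1 = l
      rw [h11, div_inv_eq_mul, hl, sq]
    have hinner₁ : ∀ x ∈ H, f₁ (g.1 * x * g.1⁻¹) =
        f₁ g.1 + g.1.1.det • conjMat g.1 (f₁ x) - conjMat (g.1 * x * g.1⁻¹) (f₁ g.1) := fun x hx => by
      rw [hdet _ g.2, one_smul, hf₁.map_conj g.2 hx]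
    set d := f₁ g.1 1 1 - f₁ g.1 0 0 with hd
    have step : ∀ u ∈ PH H, ∃ w : H, w ∈ PH H ∧ mat H w 0 1 = l * mat H u 0 1 ∧
        e01 f₁ w = l * e01 f₁ u - l * mat H u 0 1 * d := by
      intro u hu'
      obtain ⟨c1, c2, -, c4⟩ := equiv_borel (g := g.1) hg hf₁ hinner₁ hu' (hinH g u)
      obtain ⟨d1, d2⟩ := c4 (hf₁0 u hu').1 (hf₁0 u hu').2
      rw [(hf₁0 _ c1).2] at d1
      rw [hl'] at c2 d1 d2
      rw [hdet _ g.2] at d2
      refine ⟨_, c1, c2, ?_⟩
      rw [d2]
      linear_combination (l * mat H u 0 1) * d1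
    have hiter : ∀ n : ℕ, ∀ u ∈ PH H, ∃ w : H, w ∈ PH H ∧ mat H w 0 1 = l ^ n * mat H u 0 1 ∧
        e01 f₁ w = l ^ n * e01 f₁ u - (n : K) * l ^ n * mat H u 0 1 * d := by
      intro n
      induction n with
      | zero => intro u hu'; exact ⟨u, hu', by simp, by simp⟩
      | succ n ih =>
        intro u hu'
        obtain ⟨w, hw, hw1, hw2⟩ := ih u hu'
        obtain ⟨z, hz, hz1, hz2⟩ := step w hw
        refine ⟨z, hz, by rw [hz1, hw1]; ring, ?_⟩
        rw [hz2, hw1, hw2]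
        push_cast
        ring
    have hfo : IsOfFinOrder l := by
      have h1 : IsOfFinOrder (diagHom H ⟨g.1, g.2, hg⟩) := by
        haveI : Finite (H ⊓ borel K : Subgroup (GL (Fin 2) K)) :=
          Finite.of_injective _ (Subgroup.inclusion_injective inf_le_left)
        exact (diagHom H).isOfFinOrder (isOfFinOrder_of_finite _)
      exact ((Units.coeHom K).isOfFinOrder h1).pow
    have hord : ((orderOf l : ℕ) : K) ≠ 0 := by
      intro e
      rw [CharP.cast_eq_zero_iff K p] at e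
      obtain ⟨m, hm⟩ := e
      have h1 : (l ^ m) ^ p = 1 := by rw [← pow_mul, mul_comm, ← hm, pow_orderOf_eq_one]
      have h2' : l ^ m = 1 := by
        have : (l ^ m - 1) ^ p = 0 := by rw [sub_pow_char, h1, one_pow, sub_self]
        exact sub_eq_zero.mp ((pow_eq_zero_iff (Fact.out : p.Prime).ne_zero).mp this)
      have hmpos : 0 < m := Nat.pos_of_ne_zero fun e => by
        rw [e, mul_zero] at hm; exact hfo.orderOf_pos.ne' hm
      have := Nat.le_of_dvd hmpos (orderOf_dvd_of_pow_eq_one h2')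
      rw [hm] at this
      nlinarith [(Fact.out : p.Prime).two_le]
    have hd0 : d = 0 := by
      obtain ⟨w, hw, hw1, hw2⟩ := hiter (orderOf l) u₀ hu₀
      rw [pow_orderOf_eq_one, one_mul] at hw1
      rw [PH_ext hw hu₀ hw1, pow_orderOf_eq_one, ← hx₀def] at hw2
      have : ((orderOf l : ℕ) : K) * x₀ * d = 0 := by linear_combination hw2
      exact (mul_eq_zero_iff_left (mul_ne_zero hord hx₀)).mp this
    intro u hu'
    obtain ⟨w, hw, hw1, hw2⟩ := step u hu'
    exact ⟨w, hw, hw1, by rw [hw2, hd0]; ring⟩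
  -- `F` is a finite field, as large as half the torus
  have hmove : ∀ ζ : F, ∀ u : PH H, ∃ w : PH H, mat H w.1 0 1 = (ζ : K) * mat H u.1 0 1 ∧
      e01 f₁ w.1 = (ζ : K) * e01 f₁ u.1 := fun ζ u =>
    let ⟨w, hw, h1, h2⟩ := ζ.2 u.1 u.2
    ⟨⟨w, hw⟩, h1, h2⟩
  choose mv hmv1 hmv2 using hmove
  haveI : Finite F := Finite.of_injective (fun ζ : F => mv ζ ⟨u₀, hu₀⟩) fun a b e => by
    have h := congrArg (fun w : PH H => mat H w.1 0 1) e
    simp only [hmv1] at h
    exact Subtype.ext (mul_right_cancel₀ hx₀ h)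
  haveI := Fintype.ofFinite F
  have hF2 : 2 ≤ Fintype.card F := Fintype.one_lt_card
  haveI : Finite (H ⊓ borel K : Subgroup (GL (Fin 2) K)) :=
    Finite.of_injective _ (Subgroup.inclusion_injective inf_le_left)
  haveI : Finite (diagHom H).range := Finite.of_surjective _ (diagHom H).rangeRestrict_surjective
  have hTF : Nat.card (diagHom H).range ≤ 2 * (Fintype.card F - 1) := by
    letI : Fintype (diagHom H).range := Fintype.ofFinite _
    rw [Nat.card_eq_fintype_card]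
    let sqm : (diagHom H).range → F := fun t => ⟨((t : Kˣ) : K) ^ 2, by
      obtain ⟨t, ⟨⟨g, hgH, hgb⟩, rfl⟩⟩ := t
      exact hsqmem ⟨g, hgH⟩ hgb⟩
    have hcard := Finset.card_le_mul_card_image (f := sqm) Finset.univ 2 fun z hz => by
      obtain ⟨t, -, rfl⟩ := Finset.mem_image.mp hz
      have hnt : -(t : Kˣ) ∈ (diagHom H).range := by
        obtain ⟨z, hz, hz1⟩ := hneg
        have hzb : z ∈ borel K := by rw [mem_borel, hz1]; simp
        obtain ⟨g, hg⟩ := t.2
        refine ⟨⟨z, hz, hzb⟩ * g, ?_⟩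
        rw [map_mul, hg]
        apply Units.ext
        simp [diagHom_apply, hz1]
      refine (Finset.card_le_card (t := {t, ⟨-(t : Kˣ), hnt⟩}) fun s hs => ?_).trans
        (Finset.card_le_two)
      · simp only [Finset.mem_filter, Finset.mem_univ, true_and, sqm, Subtype.mk.injEq] at hs
        simp only [Finset.mem_insert, Finset.mem_singleton]
        rcases eq_or_eq_neg_of_sq_eq_sq _ _ hs with e | e
        · exact Or.inl (Subtype.ext (Units.ext e))
        · exact Or.inr (Subtype.ext (Units.ext (by simpa using e)))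
    refine hcard.trans (Nat.mul_le_mul_left 2 ?_)
    refine le_trans (Finset.card_le_card (t := Finset.univ.erase 0) fun z hz => ?_)
      (by rw [Finset.card_erase_of_mem (Finset.mem_univ _), Finset.card_univ])
    obtain ⟨t, -, rfl⟩ := Finset.mem_image.mp hz
    refine Finset.mem_erase.mpr ⟨fun e => ?_, Finset.mem_univ _⟩
    exact (t : Kˣ).ne_zero (pow_eq_zero_iff two_ne_zero |>.mp (congrArg Subtype.val e))
  have hline : ∀ u : PH H, ∃ ζ : F, mat H u.1 0 1 = (ζ : K) * x₀ := by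
    intro y
    by_contra! hy
    haveI := Fintype.ofFinite (PH H)
    have hinj : Function.Injective fun ab : F × F => mv ab.1 ⟨u₀, hu₀⟩ * mv ab.2 y := by
      rintro ⟨a, b⟩ ⟨a', b'⟩ e
      have h := congrArg (fun w : PH H => mat H w.1 0 1) e
      simp only [Subgroup.coe_mul, PH_mul_e01 (Subtype.prop _) (Subtype.prop _), hmv1] at h
      rw [← hx₀def] at h
      have hbb : b = b' := by
        by_contra hb
        obtain ⟨η, hη⟩ := (Finite.isField_of_domain F).mul_inv_cancel (sub_ne_zero.mpr hb)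
        apply hy (η * (a' - a))
        have hηK := congrArg (fun z : F => (z : K)) hη
        push_cast at hηK ⊢
        linear_combination (η : K) * h - mat H y.1 0 1 * hηK
      subst hbb
      have : ((a : K) - a') * x₀ = 0 := by linear_combination h
      rw [Subtype.ext (sub_eq_zero.mp ((mul_eq_zero_iff_right hx₀).mp this))]
    have h1 := Fintype.card_le_of_injective _ hinj
    rw [Fintype.card_prod, ← Nat.card_eq_fintype_card (α := PH H)] at h1
    obtain ⟨c, hc⟩ : ∃ c, Fintype.card F = c + 2 := ⟨_, (Nat.sub_add_cancel hF2).symm⟩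
    rw [hc] at hTF h1
    have : Nat.card (diagHom H).range ≤ 2 * (c + 1) := by omega
    nlinarith [hτ]
  -- the upper entry is linear
  set η := e01 f₁ u₀ / x₀ with hηdef
  have h01 : ∀ u ∈ PH H, e01 f₁ u = η * mat H u 0 1 := by
    intro u hu'
    obtain ⟨ζ, hζ⟩ := hline ⟨u, hu'⟩
    have he : mv ζ ⟨u₀, hu₀⟩ = ⟨u, hu'⟩ := Subtype.ext (PH_ext (mv ζ _).2 hu' (by rw [hmv1, hζ]))
    have := hmv2 ζ ⟨u₀, hu₀⟩
    rw [he] at this
    rw [this, hζ, hηdef]
    field_simp
  set X₂ : M2 K := !![-(η / 2), 0; 0, η / 2] with hX₂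
  have hX₂tr : X₂.trace = 0 := by simp [hX₂, Matrix.trace_fin_two]
  obtain ⟨Q, hQ⟩ := exists_sylow_eq (p := p) hp hdet hu
  have hidx : (((PH H).index : ℕ) : K) ≠ 0 := by
    rw [Ne, CharP.cast_eq_zero_iff K p, ← hQ]
    exact Q.not_dvd_index
  obtain ⟨X₃, hX₃tr, hX₃⟩ := (hf₁.sub_bdry hX₂tr).isBdry_of_vanish (PH H) hidx fun u hu' => by
    obtain ⟨b1, b2, b3⟩ := conjMat_unipotent (u := (u : GL (Fin 2) K)) hu' X₂
    obtain ⟨a1, a2⟩ := hf₁0 u hu'
    have a3 := h01 u hu'
    have a4 := hf₁.trace_eq _ u.2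
    rw [Matrix.trace_fin_two] at a4
    simp only [e10] at a1
    simp only [e00] at a2
    simp only [e01] at a3
    ext i j
    fin_cases i <;> fin_cases j <;>
      simp only [Fin.zero_eta, Fin.mk_one, Matrix.sub_apply, Matrix.zero_apply]
    · rw [b2, a2]; simp [hX₂]
    · rw [b3, a3]; simp [hX₂]; field_simp; ring
    · rw [b1, a1]; simp [hX₂]
    · have hc : (conjMat (u : GL (Fin 2) K) X₂).trace = 0 := by simp [hX₂tr]
      rw [Matrix.trace_fin_two, b2] at hc
      simp [hX₂] at hc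
      simp [hX₂]
      linear_combination a4 - a2 - hc
  refine ⟨X₁ + X₂ + X₃, by simp [hX₁tr, hX₂tr, hX₃tr], fun a ha => ?_⟩
  have h := hX₃ a ha
  simp only [hf₁def, sub_eq_iff_eq_add] at h
  rw [h, map_add, map_add]
  abel

end Fermat.Agent.ClassField.TWElement
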