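import Mathlib.LinearAlgebra.Matrix.GeneralLinearGroup.Defs
import Mathlib.LinearAlgebra.Matrix.Trace
import Mathlib.LinearAlgebra.Matrix.Determinant.Basic
import Mathlib.Algebra.CharP.Basic
import Mathlib.Tactic

/-!
# Elementary facts on two by two matrices used for Taylor-Wiles elements
-/

set_option autoImplicit false

open Matrix

namespace Fermat.Agent.ClassField.TWElement

variable {k : Type*} [Field k]

/-- Two by two matrices. -/
abbrev M2 (k : Type*) := Matrix (Fin 2) (Fin 2) k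

/-- The subgroup of upper triangular matrices. -/
def borel (k : Type*) [Field k] : Subgroup (GL (Fin 2) k) where
  carrier := {g | g.1 1 0 = 0}
  one_mem' := by simp
  mul_mem' {a b} ha hb := by
    simp only [Set.mem_ofPred_eq] at ha hb ⊢
    simp [Units.val_mul, Matrix.mul_apply, Fin.sum_univ_two, ha, hb]
  inv_mem' {a} ha := by
    simp only [Set.mem_ofPred_eq] at ha ⊢
    have h : (a⁻¹).1 * a.1 = 1 := by rw [← Units.val_mul, inv_mul_cancel]; rfl
    have h10 := congr_fun (congr_fun h 1) 0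
    simp [Matrix.mul_apply, Fin.sum_univ_two, ha, -Matrix.coe_units_inv] at h10
    rcases h10 with h10 | h10
    · exact h10
    · exfalso
      have hd : a.1.det ≠ 0 := (a.isUnit.map Matrix.detMonoidHom).ne_zero
      simp [Matrix.det_fin_two, ha, h10] at hd

lemma mem_borel {g : GL (Fin 2) k} : g ∈ borel k ↔ g.1 1 0 = 0 := Iff.rfl

/-- The subgroup of upper unitriangular matrices. -/
def unipotent (k : Type*) [Field k] : Subgroup (GL (Fin 2) k) where
  carrier := {g | g.1 1 0 = 0 ∧ g.1 0 0 = 1 ∧ g.1 1 1 = 1}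
  one_mem' := by simp
  mul_mem' {a b} ha hb := by
    simp only [Set.mem_ofPred_eq] at ha hb ⊢
    obtain ⟨a1, a2, a3⟩ := ha
    obtain ⟨b1, b2, b3⟩ := hb
    simp [Units.val_mul, Matrix.mul_apply, Fin.sum_univ_two, a1, a2, a3, b1, b2, b3]
  inv_mem' {a} ha := by
    simp only [Set.mem_ofPred_eq] at ha ⊢
    obtain ⟨a1, a2, a3⟩ := ha
    have h : (a⁻¹).1 * a.1 = 1 := by rw [← Units.val_mul, inv_mul_cancel]; rfl
    have h10 := congr_fun (congr_fun h 1) 0
    have h00 := congr_fun (congr_fun h 0) 0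
    have h11 := congr_fun (congr_fun h 1) 1
    simp [Matrix.mul_apply, Fin.sum_univ_two, a1, a2, a3, -Matrix.coe_units_inv] at h10 h00 h11
    rw [h10] at h11
    simp [-Matrix.coe_units_inv] at h11
    exact ⟨h10, h00, h11⟩

lemma mem_unipotent {g : GL (Fin 2) k} :
    g ∈ unipotent k ↔ g.1 1 0 = 0 ∧ g.1 0 0 = 1 ∧ g.1 1 1 = 1 := Iff.rfl

lemma unipotent_le_borel : unipotent k ≤ borel k := fun _ h => h.1

/-- The two entries determined by the upper triangular product. -/
lemma borel_mul_apply {a b : GL (Fin 2) k} (ha : a ∈ borel k) (hb : b ∈ borel k) :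
    (a * b).1 0 0 = a.1 0 0 * b.1 0 0 ∧ (a * b).1 1 1 = a.1 1 1 * b.1 1 1 := by
  simp [mem_borel] at ha hb
  simp [Units.val_mul, Matrix.mul_apply, Fin.sum_univ_two, ha, hb]

lemma borel_diag_ne_zero {a : GL (Fin 2) k} (ha : a ∈ borel k) :
    a.1 0 0 ≠ 0 ∧ a.1 1 1 ≠ 0 := by
  have hd : a.1.det ≠ 0 := (a.isUnit.map Matrix.detMonoidHom).ne_zero
  rw [mem_borel] at ha
  simp [Matrix.det_fin_two, ha] at hd
  exact hd

lemma det_eq_of_borel {a : GL (Fin 2) k} (ha : a ∈ borel k) :
    a.1.det = a.1 0 0 * a.1 1 1 := by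
  rw [mem_borel] at ha
  simp [Matrix.det_fin_two, ha]

lemma borel_trace_sq {a : GL (Fin 2) k} (ha : a ∈ borel k) (hdet : a.1.det = 1) :
    a.1 1 1 = (a.1 0 0)⁻¹ ∧ a.1.trace ^ 2 - 4 = (a.1 0 0 - a.1 1 1) ^ 2 := by
  rw [det_eq_of_borel ha] at hdet
  refine ⟨eq_inv_of_mul_eq_one_right hdet, ?_⟩
  rw [Matrix.trace_fin_two]
  linear_combination (-4 : k) * hdet.symm

/-- A matrix commuting with a non-scalar matrix is a polynomial in it. -/
lemma exists_eq_smul_add_of_commute {h M : M2 k}
    (hns : h 0 1 ≠ 0 ∨ h 1 0 ≠ 0 ∨ h 0 0 ≠ h 1 1) (hc : h * M = M * h) :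
    ∃ α β : k, M = α • (1 : M2 k) + β • h := by
  have e00 := congr_fun (congr_fun hc 0) 0
  have e01 := congr_fun (congr_fun hc 0) 1
  have e10 := congr_fun (congr_fun hc 1) 0
  simp [Matrix.mul_apply, Fin.sum_univ_two] at e00 e01 e10
  rcases hns with hb | hc' | had
  · refine ⟨M 0 0 - M 0 1 / h 0 1 * h 0 0, M 0 1 / h 0 1, ?_⟩
    ext i j
    fin_cases i <;> fin_cases j <;> simp <;> field_simp
    · linear_combination e00
    · linear_combination e01
  · refine ⟨M 0 0 - M 1 0 / h 1 0 * h 0 0, M 1 0 / h 1 0, ?_⟩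
    ext i j
    fin_cases i <;> fin_cases j <;> simp <;> field_simp
    · linear_combination -e00
    · linear_combination -e10
  · have h01 : M 0 1 * (h 0 0 - h 1 1) = h 0 1 * (M 0 0 - M 1 1) := by linear_combination e01
    have h10 : M 1 0 * (h 0 0 - h 1 1) = h 1 0 * (M 0 0 - M 1 1) := by linear_combination -e10
    have hsub : h 0 0 - h 1 1 ≠ 0 := sub_ne_zero.2 had
    set β := (M 0 0 - M 1 1) / (h 0 0 - h 1 1) with hβ
    have hβ' : β * (h 0 0 - h 1 1) = M 0 0 - M 1 1 := div_mul_cancel₀ _ hsub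
    refine ⟨M 0 0 - β * h 0 0, β, ?_⟩
    ext i j
    fin_cases i <;> fin_cases j <;> simp
    · apply mul_right_cancel₀ hsub; linear_combination h01 - h 0 1 * hβ'
    · apply mul_right_cancel₀ hsub; linear_combination h10 - h 1 0 * hβ'
    · linear_combination hβ'

lemma not_scalar_of_trace_sq_ne {h : M2 k} (hdet : h.det = 1) (ht : h.trace ^ 2 ≠ 4) :
    h 0 1 ≠ 0 ∨ h 1 0 ≠ 0 ∨ h 0 0 ≠ h 1 1 := by
  by_contra hcon
  push Not at hcon
  obtain ⟨h1, h2, h3⟩ := hcon
  apply ht
  simp [Matrix.det_fin_two, h1, h2] at hdet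
  rw [Matrix.trace_fin_two, h3] at *
  linear_combination (4 : k) * hdet

lemma trace_smul_add (α β : k) (h : M2 k) :
    (α • (1 : M2 k) + β • h).trace = 2 * α + β * h.trace := by
  simp [Matrix.trace_fin_two]; ring

lemma det_smul_add (α β : k) (h : M2 k) :
    (α • (1 : M2 k) + β • h).det = α ^ 2 + α * β * h.trace + β ^ 2 * h.det := by
  simp [Matrix.det_fin_two, Matrix.trace_fin_two]; ring

/-- A determinant one matrix commuting with a regular semisimple one is `± 1` or regular
semisimple. -/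
lemma eq_one_or_neg_one_of_commute {h M : M2 k} (hdet : h.det = 1) (ht : h.trace ^ 2 ≠ 4)
    (hMdet : M.det = 1) (hM : M.trace ^ 2 = 4) (hc : h * M = M * h) : M = 1 ∨ M = -1 := by
  obtain ⟨α, β, rfl⟩ := exists_eq_smul_add_of_commute (not_scalar_of_trace_sq_ne hdet ht) hc
  rw [trace_smul_add] at hM
  rw [det_smul_add, hdet] at hMdet
  have hβ : β ^ 2 * (h.trace ^ 2 - 4) = 0 := by linear_combination hM - 4 * hMdet
  have hβ0 : β = 0 := by
    rcases mul_eq_zero.1 hβ with h0 | h0
    · exact eq_zero_of_pow_eq_zero h0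
    · exact absurd (sub_eq_zero.1 h0) ht
  subst hβ0
  have hα : (α - 1) * (α + 1) = 0 := by linear_combination hMdet
  rcases mul_eq_zero.1 hα with h1 | h1
  · left; simp [sub_eq_zero.1 h1]
  · right; simp [eq_neg_of_add_eq_zero_left h1]

/-- Matrices commuting with a regular semisimple matrix commute with each other. -/
lemma commute_of_commute {h M N : M2 k} (hdet : h.det = 1) (ht : h.trace ^ 2 ≠ 4)
    (hM : h * M = M * h) (hN : h * N = N * h) : M * N = N * M := by
  obtain ⟨α, β, rfl⟩ := exists_eq_smul_add_of_commute (not_scalar_of_trace_sq_ne hdet ht) hM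
  simp [add_mul, mul_add, hN]

/-- Cayley-Hamilton in size two. -/
lemma mul_self_eq (h : M2 k) : h * h = h.trace • h - h.det • (1 : M2 k) := by
  ext i j
  fin_cases i <;> fin_cases j <;>
    simp [Matrix.mul_apply, Fin.sum_univ_two, Matrix.trace_fin_two, Matrix.det_fin_two] <;> ring

/-- A matrix commuting with a regular semisimple `h` and having the same trace and determinant
is `h` or `trace h - h`. -/
lemma eq_or_eq_sub_of_commute (h2k : (2 : k) ≠ 0) {h M : M2 k} (hdet : h.det = 1) (ht : h.trace ^ 2 ≠ 4)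
    (hMdet : M.det = 1) (hMt : M.trace = h.trace) (hc : h * M = M * h) :
    M = h ∨ M = h.trace • (1 : M2 k) - h := by
  obtain ⟨α, β, rfl⟩ := exists_eq_smul_add_of_commute (not_scalar_of_trace_sq_ne hdet ht) hc
  rw [trace_smul_add] at hMt
  rw [det_smul_add, hdet] at hMdet
  have hβ : (β - 1) * (β + 1) * (h.trace ^ 2 - 4) = 0 := by
    linear_combination (2 * α + β * h.trace + h.trace) * hMt - 4 * hMdet
  rcases mul_eq_zero.1 hβ with hβ | hβ
  · rcases mul_eq_zero.1 hβ with h1 | h1
    · have hb : β = 1 := sub_eq_zero.1 h1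
      subst hb
      left
      have : (2 : k) * α = 0 := by linear_combination hMt
      simp [(mul_eq_zero.1 this).resolve_left h2k]
    · have hb : β = -1 := eq_neg_of_add_eq_zero_left h1
      subst hb
      right
      have h2 : (2 : k) * (α - h.trace) = 0 := by linear_combination hMt
      rw [sub_eq_zero.1 ((mul_eq_zero.1 h2).resolve_left h2k)]; simp [sub_eq_add_neg]
  · exact absurd (sub_eq_zero.1 hβ) ht

end Fermat.Agent.ClassField.TWElement
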