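import Fermat.Agent.ClassField.S56.TW.Mat2
import Mathlib.GroupTheory.GroupAction.Quotient
import Mathlib.GroupTheory.Coset.Card
import Mathlib.GroupTheory.OrderOfElement

/-!
# A counting lemma for finite subgroups of `SL₂` with non-trivial unipotent elements

If a finite irreducible subgroup of `SL₂` contains `-1` and has Sylow subgroup of order `q`
inside the unipotent group, its diagonal torus has at least `q - 1` elements.
-/

set_option autoImplicit false

open Matrix

namespace Fermat.Agent.ClassField.TWElement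

variable {k : Type*} [Field k]

/-- Upper left entry, as a character of the Borel part of a subgroup. -/
def diagHom (H : Subgroup (GL (Fin 2) k)) : (H ⊓ borel k : Subgroup _) →* kˣ where
  toFun b := Units.mk0 (b.1.1 0 0) (borel_diag_ne_zero b.2.2).1
  map_one' := Units.ext (by simp)
  map_mul' a b := Units.ext (borel_mul_apply a.2.2 b.2.2).1

lemma diagHom_apply {H : Subgroup (GL (Fin 2) k)} (b : (H ⊓ borel k : Subgroup _)) :
    ((diagHom H b : kˣ) : k) = b.1.1 0 0 := rfl

lemma arith_small {m q R S : ℤ} (hm : 1 < m) (hR : R = 2 * (m - 1)) (hS : S ≤ R)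
    (h4 : m * (q * 2) ≤ 4 * S) : q ≤ 3 := by
  by_contra h
  nlinarith

lemma arith_one {m q τ R S0 S1 : ℤ} (hm : 1 < m) (hq : 3 ≤ q) (hτ : 4 ≤ τ)
    (hR : R = m * (q * τ) - 2 - 2 * m * q + 2 * m) (hS0 : S0 = m * q * (τ - 2))
    (h4 : m * (q * τ) ≤ 4 * S1) (hle : S0 + S1 ≤ R) : False := by
  have h1 : S1 ≤ 2 * m - 2 := by rw [hS0, hR] at hle; linarith
  nlinarith [mul_le_mul hq hτ (by norm_num) (by linarith)]

lemma arith_two {m q τ R S0 T : ℤ} (hm : 1 < m) (hq : 2 ≤ q)
    (hR : R = m * (q * τ) - 2 - 2 * m * q + 2 * m) (hS0 : 2 * S0 = m * q * (τ - 2))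
    (h4 : m * (q * τ) ≤ 2 * T) (hle : S0 + T ≤ R) : False := by
  nlinarith [mul_le_mul_of_nonneg_left hq (show (0 : ℤ) ≤ m by linarith)]

lemma arith_final {m s q τ j : ℤ} (hm : m = 1 + s * q) (hs : 1 ≤ s) (hq : 2 ≤ q)
    (hj : j * (m - 2 * s) = τ) (hj1 : 1 ≤ j) : q ≤ τ + 1 := by
  have h1 : q - 2 ≤ s * (q - 2) := le_mul_of_one_le_left (by linarith) hs
  have h2 : q - 1 ≤ m - 2 * s := by linarith
  have h3 : m - 2 * s ≤ j * (m - 2 * s) := le_mul_of_one_le_left (by linarith) hj1
  linarith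

section

variable (H : Subgroup (GL (Fin 2) k))

/-- The matrix of an element of a subgroup. -/
abbrev mat (g : H) : M2 k := (g : GL (Fin 2) k).1

lemma mat_mul (a b : H) : mat H (a * b) = mat H a * mat H b := rfl

lemma mat_inj {a b : H} (h : mat H a = mat H b) : a = b :=
  Subtype.ext (Units.ext h)

lemma mat_one : mat H 1 = 1 := rfl

/-- Regular semisimple elements. -/
def IsRS (g : H) : Prop := (mat H g).trace ^ 2 ≠ 4

/-- The Borel part. -/
abbrev BH : Subgroup H := (borel k).subgroupOf H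

/-- The unipotent part. -/
abbrev PH : Subgroup H := (unipotent k).subgroupOf H

lemma mem_BH {g : H} : g ∈ BH H ↔ mat H g 1 0 = 0 := Iff.rfl

lemma mem_PH {g : H} :
    g ∈ PH H ↔ mat H g 1 0 = 0 ∧ mat H g 0 0 = 1 ∧ mat H g 1 1 = 1 := Iff.rfl

lemma PH_e10 {g : H} (hg : g ∈ PH H) : mat H g 1 0 = 0 := hg.1

lemma PH_e00 {g : H} (hg : g ∈ PH H) : mat H g 0 0 = 1 := hg.2.1

lemma PH_e11 {g : H} (hg : g ∈ PH H) : mat H g 1 1 = 1 := hg.2.2

variable (hdet : ∀ h ∈ H, h.1.det = 1)
include hdet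

lemma det_mat (g : H) : (mat H g).det = 1 := hdet g.1 g.2

lemma trace_conj (x g : H) : (mat H (x * g * x⁻¹)).trace = (mat H g).trace := by
  rw [mat_mul, mat_mul, Matrix.trace_mul_comm, ← Matrix.mul_assoc, ← mat_mul, inv_mul_cancel,
    mat_one, Matrix.one_mul]

lemma isRS_conj_iff (x g : H) : IsRS H (x * g * x⁻¹) ↔ IsRS H g := by
  rw [IsRS, IsRS, trace_conj H hdet]

lemma trace_inv (g : H) : mat H g⁻¹ = (mat H g).trace • (1 : M2 k) - mat H g := by
  have h1 : mat H g * ((mat H g).trace • (1 : M2 k) - mat H g) = 1 := by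
    rw [mul_sub, mul_smul_comm, mul_one, mul_self_eq, det_mat H hdet]
    simp
  have h2 : mat H g⁻¹ * mat H g = 1 := by rw [← mat_mul, inv_mul_cancel, mat_one]
  calc mat H g⁻¹ = mat H g⁻¹ * (mat H g * ((mat H g).trace • (1 : M2 k) - mat H g)) := by
        rw [h1, mul_one]
    _ = _ := by rw [← mul_assoc, h2, one_mul]

lemma diag_of_mem_BH {g : H} (hg : g ∈ BH H) :
    mat H g 1 1 = (mat H g 0 0)⁻¹ ∧ mat H g 0 0 ≠ 0 :=
  ⟨(borel_trace_sq (a := (g : GL (Fin 2) k)) hg (hdet g.1 g.2)).1, (borel_diag_ne_zero hg).1⟩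

variable {p : ℕ} [Fact p.Prime] [CharP k p] (hp : p ≠ 2)
include hp

omit hdet in
lemma two_ne : (2 : k) ≠ 0 := by
  intro h
  have : ((2 : ℕ) : k) = 0 := by exact_mod_cast h
  rw [CharP.cast_eq_zero_iff k p] at this
  exact hp ((Nat.prime_dvd_prime_iff_eq Fact.out Nat.prime_two).1 this)

omit hdet in
lemma four_ne : (4 : k) ≠ 0 := by
  have := mul_ne_zero (two_ne (k := k) hp) (two_ne (k := k) hp)
  intro h; apply this; linear_combination h

omit hdet in
lemma one_ne_neg_one : (1 : k) ≠ -1 := fun h => two_ne (k := k) hp (by linear_combination h)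

lemma mem_PH_of_borel_trace_two {g : H} (hg : g ∈ BH H) (ht : (mat H g).trace = 2) :
    g ∈ PH H := by
  obtain ⟨h11, h0⟩ := diag_of_mem_BH H hdet hg
  rw [Matrix.trace_fin_two, h11] at ht
  have h1 : mat H g 0 0 = 1 := by
    have : (mat H g 0 0 - 1) ^ 2 = 0 := by
      have h2 := mul_inv_cancel₀ h0
      linear_combination (mat H g 0 0) * ht - h2
    exact sub_eq_zero.1 (eq_zero_of_pow_eq_zero this)
  exact ⟨hg, h1, show mat H g 1 1 = 1 by rw [h11, h1, inv_one]⟩

omit hp hdet in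
lemma trace_of_mem_PH {g : H} (hg : g ∈ PH H) : (mat H g).trace = 2 := by
  rw [Matrix.trace_fin_two, (PH_e00 H hg), (PH_e11 H hg)]; norm_num

/-- Trivial intersection property. -/
lemma mem_BH_of_conj {x u : H} (hu : u ∈ PH H) (hu1 : u ≠ 1)
    (hxu : x⁻¹ * u * x ∈ BH H) : x ∈ BH H := by
  have hv : x⁻¹ * u * x ∈ PH H := by
    refine mem_PH_of_borel_trace_two H hdet hp hxu ?_
    have := trace_conj H hdet x⁻¹ u
    rw [inv_inv] at this
    rw [this, trace_of_mem_PH H hu]
  have he : mat H u * mat H x = mat H x * mat H (x⁻¹ * u * x) := by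
    rw [← mat_mul, ← mat_mul]; congr 1; group
  have h00 := congr_fun (congr_fun he 0) 0
  simp only [Matrix.mul_apply, Fin.sum_univ_two, (PH_e00 H hu), (PH_e10 H hv), (PH_e00 H hv), one_mul, mul_one,
    mul_zero, add_zero] at h00
  have hne : mat H u 0 1 ≠ 0 := by
    intro h
    refine hu1 (mat_inj H ?_)
    ext i j
    fin_cases i <;> fin_cases j <;> simp [mat_one, h, (PH_e10 H hu), (PH_e00 H hu), (PH_e11 H hu)]
  rw [mem_BH]
  have : mat H u 0 1 * mat H x 1 0 = 0 := by linear_combination h00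
  exact (mul_eq_zero.1 this).resolve_left hne

omit hp in
lemma conj_mem_PH {b u : H} (hb : b ∈ BH H) (hu : u ∈ PH H) : b * u * b⁻¹ ∈ PH H := by
  have hbi : b⁻¹ ∈ BH H := inv_mem hb
  have hu' : u ∈ BH H := hu.1
  obtain ⟨e1, e2⟩ := borel_mul_apply (a := ((b * u : H) : GL (Fin 2) k))
    (b := ((b⁻¹ : H) : GL (Fin 2) k)) (mul_mem hb hu') hbi
  obtain ⟨f1, f2⟩ := borel_mul_apply (a := (b : GL (Fin 2) k)) (b := (u : GL (Fin 2) k)) hb hu'
  obtain ⟨g1, g2⟩ := borel_mul_apply (a := (b : GL (Fin 2) k))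
    (b := ((b⁻¹ : H) : GL (Fin 2) k)) hb hbi
  have hone : ((b * b⁻¹ : H) : GL (Fin 2) k) = 1 := by simp
  refine ⟨mul_mem (mul_mem hb hu') hbi, ?_, ?_⟩
  · show ((b * u * b⁻¹ : H) : GL (Fin 2) k).1 0 0 = 1
    rw [Subgroup.coe_mul, e1, Subgroup.coe_mul, f1, show (u : GL (Fin 2) k).1 0 0 = 1 from hu.2.1, mul_one, ← g1, ← Subgroup.coe_mul,
      hone]
    simp
  · show ((b * u * b⁻¹ : H) : GL (Fin 2) k).1 1 1 = 1
    rw [Subgroup.coe_mul, e2, Subgroup.coe_mul, f2, show (u : GL (Fin 2) k).1 1 1 = 1 from hu.2.2, mul_one, ← g2, ← Subgroup.coe_mul,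
      hone]
    simp

/-- The centralizer of an element. -/
abbrev cent (h : H) : Subgroup H := Subgroup.centralizer {h}

omit hdet hp in
lemma mem_cent {h g : H} : g ∈ cent H h ↔ mat H h * mat H g = mat H g * mat H h := by
  rw [Subgroup.mem_centralizer_singleton_iff, ← mat_mul, ← mat_mul]
  exact ⟨fun e => by rw [e], fun e => (mat_inj H e).symm ▸ rfl⟩

omit hp in
lemma cent_comm {h a b : H} (hh : IsRS H h) (ha : a ∈ cent H h) (hb : b ∈ cent H h) :
    a * b = b * a :=
  mat_inj H (commute_of_commute (det_mat H hdet h) hh ((mem_cent H).1 ha) ((mem_cent H).1 hb))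

omit hp in
lemma eq_or_eq_of_cent {h a : H} (hh : IsRS H h) (ha : a ∈ cent H h) (hra : ¬ IsRS H a) :
    mat H a = 1 ∨ mat H a = -1 :=
  eq_one_or_neg_one_of_commute (det_mat H hdet h) hh (det_mat H hdet a) (not_not.1 hra)
    ((mem_cent H).1 ha)

/-- The set of elements inverting or fixing `h` under conjugation. -/
def nset (h : H) : Set H := {x | x * h * x⁻¹ = h ∨ x * h * x⁻¹ = h⁻¹}

lemma mem_nset_of_conj_mem_cent {h x : H} (hh : IsRS H h) (hx : x * h * x⁻¹ ∈ cent H h) :
    x ∈ nset H h := by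
  rcases eq_or_eq_sub_of_commute (two_ne (k := k) hp) (det_mat H hdet h) hh (det_mat H hdet _)
    (trace_conj H hdet x h) ((mem_cent H).1 hx) with e | e
  · exact Or.inl (mat_inj H e)
  · exact Or.inr (mat_inj H (e.trans (trace_inv H hdet h).symm))

/-- The elements conjugate into the torus of `h`. -/
def sset (h : H) : Set H := {g | IsRS H g ∧ ∃ x : H, x⁻¹ * g * x ∈ cent H h}

omit hdet hp in
lemma mem_sset_self {h : H} (hh : IsRS H h) : h ∈ sset H h :=
  ⟨hh, 1, by simp [Subgroup.mem_centralizer_singleton_iff]⟩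

omit hp in
lemma sset_disjoint {h h' : H} (hh' : IsRS H h') (hnot : h' ∉ sset H h) :
    Disjoint (sset H h) (sset H h') := by
  rw [Set.disjoint_left]
  rintro g ⟨hg, x, hx⟩ ⟨-, y, hy⟩
  apply hnot
  refine ⟨hh', y⁻¹ * x, ?_⟩
  have hrs : IsRS H (x⁻¹ * g * x) := by
    have := (isRS_conj_iff H hdet x⁻¹ g).2 hg
    rwa [inv_inv] at this
  have e : (y⁻¹ * g * y) * h' = h' * (y⁻¹ * g * y) := Subgroup.mem_centralizer_singleton_iff.1 hy
  have a1 : (y⁻¹ * x)⁻¹ * h' * (y⁻¹ * x) ∈ cent H (x⁻¹ * g * x) := by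
    rw [Subgroup.mem_centralizer_singleton_iff]
    calc (y⁻¹ * x)⁻¹ * h' * (y⁻¹ * x) * (x⁻¹ * g * x)
        = x⁻¹ * y * (h' * (y⁻¹ * g * y)) * y⁻¹ * x := by group
      _ = x⁻¹ * y * ((y⁻¹ * g * y) * h') * y⁻¹ * x := by rw [e]
      _ = x⁻¹ * g * x * ((y⁻¹ * x)⁻¹ * h' * (y⁻¹ * x)) := by group
  have a2 : h ∈ cent H (x⁻¹ * g * x) := by
    rw [Subgroup.mem_centralizer_singleton_iff]
    exact (Subgroup.mem_centralizer_singleton_iff.1 hx).symm
  rw [Subgroup.mem_centralizer_singleton_iff]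
  exact cent_comm H hdet hrs a1 a2

variable [Finite H]

omit hp in
lemma card_nset {h : H} (hh : IsRS H h) :
    Nat.card (nset H h) = Nat.card (cent H h) ∨
      Nat.card (nset H h) = 2 * Nat.card (cent H h) := by
  classical
  have hne : h⁻¹ ≠ h := by
    intro e
    have h2 : h * h = 1 := by
      calc h * h = h⁻¹ * h := by rw [e]
        _ = 1 := inv_mul_cancel h
    apply hh
    have := congrArg (fun a => (mat H a).trace) h2
    simp only [mat_mul, mat_one, mul_self_eq, det_mat H hdet] at this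
    simp [Matrix.trace_fin_two] at this
    rw [Matrix.trace_fin_two]
    linear_combination this
  have hC : ∀ x, x ∈ cent H h ↔ x * h * x⁻¹ = h := by
    intro x
    rw [Subgroup.mem_centralizer_singleton_iff, mul_inv_eq_iff_eq_mul]
  by_cases hex : ∃ x0 : H, x0 * h * x0⁻¹ = h⁻¹
  · obtain ⟨x0, hx0⟩ := hex
    right
    have hU : nset H h = (cent H h : Set H) ∪ (fun c => x0 * c) '' (cent H h : Set H) := by
      ext x
      constructor
      · rintro (hx | hx)
        · exact Or.inl ((hC x).2 hx)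
        · refine Or.inr ⟨x0⁻¹ * x, (hC _).2 ?_, by group⟩
          calc x0⁻¹ * x * h * (x0⁻¹ * x)⁻¹ = x0⁻¹ * (x * h * x⁻¹) * x0 := by group
            _ = x0⁻¹ * (x0 * h * x0⁻¹) * x0 := by rw [hx, hx0]
            _ = h := by group
      · rintro (hx | ⟨c, hc, rfl⟩)
        · exact Or.inl ((hC x).1 hx)
        · right
          calc x0 * c * h * (x0 * c)⁻¹ = x0 * (c * h * c⁻¹) * x0⁻¹ := by group
            _ = h⁻¹ := by rw [(hC c).1 hc, hx0]
    have hd : Disjoint (cent H h : Set H) ((fun c => x0 * c) '' (cent H h : Set H)) := by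
      rw [Set.disjoint_left]
      rintro x hx ⟨c, hc, rfl⟩
      apply hne
      have hx0c : x0 ∈ cent H h := by
        have := mul_mem hx (inv_mem hc)
        simpa using this
      rw [← hx0, (hC x0).1 hx0c]
    rw [Nat.card_coe_set_eq, hU, Set.ncard_union_eq hd,
      Set.ncard_image_of_injective _ (mul_right_injective x0), ← Nat.card_coe_set_eq]
    rw [two_mul]; rfl
  · left
    apply Nat.card_congr
    refine Equiv.subtypeEquivRight fun x => ?_
    show (x * h * x⁻¹ = h ∨ x * h * x⁻¹ = h⁻¹) ↔ _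
    rw [hC]
    exact ⟨fun e => e.resolve_right fun e' => hex ⟨x, e'⟩, Or.inl⟩

omit [Finite H] in
lemma card_sset {h : H} (hh : IsRS H h) :
    Nat.card (sset H h) * Nat.card (nset H h) =
      Nat.card H * Nat.card {c : H // c ∈ cent H h ∧ IsRS H c} := by
  classical
  have hN : ∀ x c c' : H, c ∈ cent H h → IsRS H c → c' ∈ cent H h → x * c * x⁻¹ = c' →
      x ∈ nset H h := by
    intro x c c' hc hrc hc' e
    refine mem_nset_of_conj_mem_cent H hdet hp hh ?_
    have hrc' : IsRS H c' := by rw [← e]; exact (isRS_conj_iff H hdet x c).2 hrc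
    have a1 : x * h * x⁻¹ ∈ cent H c' := by
      rw [Subgroup.mem_centralizer_singleton_iff, ← e]
      have hcm : c * h = h * c := Subgroup.mem_centralizer_singleton_iff.1 hc
      calc x * h * x⁻¹ * (x * c * x⁻¹) = x * (h * c) * x⁻¹ := by group
        _ = x * (c * h) * x⁻¹ := by rw [hcm]
        _ = x * c * x⁻¹ * (x * h * x⁻¹) := by group
    have a2 : h ∈ cent H c' :=
      Subgroup.mem_centralizer_singleton_iff.2 (Subgroup.mem_centralizer_singleton_iff.1 hc').symm
    exact Subgroup.mem_centralizer_singleton_iff.2 (cent_comm H hdet hrc' a1 a2)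
  let x0 : sset H h → H := fun g => g.2.2.choose
  have hx0 : ∀ g : sset H h, (x0 g)⁻¹ * g.1 * x0 g ∈ cent H h := fun g => g.2.2.choose_spec
  have hrs0 : ∀ g : sset H h, IsRS H ((x0 g)⁻¹ * g.1 * x0 g) := fun g => by
    have := (isRS_conj_iff H hdet (x0 g)⁻¹ g.1).2 g.2.1
    rwa [inv_inv] at this
  let F : H × {c : H // c ∈ cent H h ∧ IsRS H c} → sset H h × nset H h := fun xc =>
    let g : sset H h := ⟨xc.1 * xc.2.1 * xc.1⁻¹,
      ⟨(isRS_conj_iff H hdet _ _).2 xc.2.2.2, xc.1, by
        have : xc.1⁻¹ * (xc.1 * xc.2.1 * xc.1⁻¹) * xc.1 = xc.2.1 := by group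
        rw [this]; exact xc.2.2.1⟩⟩
    ⟨g, ⟨(x0 g)⁻¹ * xc.1,
      hN _ xc.2.1 _ xc.2.2.1 xc.2.2.2 (hx0 g) (by simp only [g]; group)⟩⟩
  have hF : Function.Bijective F := by
    constructor
    · rintro ⟨x, c⟩ ⟨x', c'⟩ e
      have e1 := congrArg Prod.fst e
      have e2 := congrArg (fun z => (z.2 : H)) e
      simp only [F] at e1 e2
      rw [e1] at e2
      have hx : x = x' := mul_left_cancel e2
      subst hx
      have e3 : x * c.1 * x⁻¹ = x * c'.1 * x⁻¹ := congrArg Subtype.val e1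
      have : c.1 = c'.1 := by simpa using e3
      simp [Subtype.ext this]
    · rintro ⟨g, n⟩
      have hc : (n.1)⁻¹ * ((x0 g)⁻¹ * g.1 * x0 g) * n.1 ∈ cent H h := by
        rw [Subgroup.mem_centralizer_singleton_iff]
        have hc0 : (x0 g)⁻¹ * g.1 * x0 g * h = h * ((x0 g)⁻¹ * g.1 * x0 g) :=
          Subgroup.mem_centralizer_singleton_iff.1 (hx0 g)
        set c0 := (x0 g)⁻¹ * g.1 * x0 g
        have hcn : c0 * (n.1 * h * n.1⁻¹) = n.1 * h * n.1⁻¹ * c0 := by
          rcases n.2 with e | e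
          · rw [e]; exact hc0
          · rw [e]; exact (show Commute c0 h from hc0).inv_right
        calc n.1⁻¹ * c0 * n.1 * h = n.1⁻¹ * (c0 * (n.1 * h * n.1⁻¹)) * n.1 := by group
          _ = n.1⁻¹ * (n.1 * h * n.1⁻¹ * c0) * n.1 := by rw [hcn]
          _ = h * (n.1⁻¹ * c0 * n.1) := by group
      have hrc : IsRS H (n.1⁻¹ * ((x0 g)⁻¹ * g.1 * x0 g) * n.1) := by
        have := (isRS_conj_iff H hdet (n.1⁻¹) _).2 (hrs0 g)
        rwa [inv_inv] at this
      refine ⟨(x0 g * n.1, ⟨_, hc, hrc⟩), ?_⟩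
      have hg : (⟨x0 g * n.1 * (n.1⁻¹ * ((x0 g)⁻¹ * g.1 * x0 g) * n.1) * (x0 g * n.1)⁻¹,
          (F (x0 g * n.1, ⟨_, hc, hrc⟩)).1.2⟩ : sset H h) = g := Subtype.ext (by group)
      refine Prod.ext hg (Subtype.ext ?_)
      show (x0 _)⁻¹ * (x0 g * n.1) = n.1
      rw [hg]; group
  rw [← Nat.card_prod, ← Nat.card_prod]
  exact (Nat.card_congr (Equiv.ofBijective F hF)).symm

omit [Finite H] hdet in
/-- The negative of the identity. -/
lemma exists_neg_one (hneg : ∃ z ∈ H, z.1 = -1) : ∃ z : H, mat H z = -1 ∧ orderOf z = 2 := by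
  obtain ⟨z, hz, hz1⟩ := hneg
  refine ⟨⟨z, hz⟩, hz1, orderOf_eq_prime (mat_inj H ?_) fun e => ?_⟩
  · rw [pow_two, mat_mul]; simp [mat, hz1]
  · have := congr_fun (congr_fun (congrArg (mat H) e) 0) 0
    simp [mat, hz1] at this
    exact one_ne_neg_one (k := k) hp this.symm

lemma card_torus (hneg : ∃ z ∈ H, z.1 = -1) {h : H} (hh : IsRS H h) :
    Nat.card {c : H // c ∈ cent H h ∧ IsRS H c} + 2 = Nat.card (cent H h) ∧
      2 ∣ Nat.card (cent H h) ∧ 4 ≤ Nat.card (cent H h) := by
  classical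
  obtain ⟨z, hz, hoz⟩ := exists_neg_one H hp hneg
  have hzc : z ∈ cent H h := (mem_cent H).2 (by simp [hz])
  have h2 : 2 ∣ Nat.card (cent H h) := by
    have := orderOf_dvd_natCard (⟨z, hzc⟩ : cent H h)
    rwa [Subgroup.orderOf_mk, hoz] at this
  have hz1 : z ≠ 1 := fun e => by simp [e] at hoz
  have hset : (cent H h : Set H) = {c | c ∈ cent H h ∧ IsRS H c} ∪ {1, z} := by
    ext c
    constructor
    · intro hc
      by_cases hr : IsRS H c
      · exact Or.inl ⟨hc, hr⟩
      · rcases eq_or_eq_of_cent H hdet hh hc hr with e | e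
        · exact Or.inr (Or.inl (mat_inj H (e.trans (mat_one H).symm)))
        · exact Or.inr (Or.inr (Set.mem_singleton_iff.2 (mat_inj H (e.trans hz.symm))))
    · rintro (hc | rfl | rfl)
      · exact hc.1
      · exact one_mem _
      · exact hzc
  have hd : Disjoint {c | c ∈ cent H h ∧ IsRS H c} ({1, z} : Set H) := by
    rw [Set.disjoint_left]
    rintro c ⟨-, hr⟩ (rfl | rfl)
    · exact hr (by simp [mat_one]; norm_num)
    · exact hr (by simp [hz]; norm_num)
  have hsum : Nat.card {c : H // c ∈ cent H h ∧ IsRS H c} + 2 = Nat.card (cent H h) := by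
    have e1 : Nat.card (cent H h) = (cent H h : Set H).ncard := Nat.card_coe_set_eq _
    rw [e1, hset, Set.ncard_union_eq hd, Set.ncard_pair hz1.symm, ← Nat.card_coe_set_eq]
    rfl
  refine ⟨hsum, h2, ?_⟩
  have : 0 < Nat.card {c : H // c ∈ cent H h ∧ IsRS H c} :=
    Nat.card_pos_iff.2 ⟨⟨⟨h, Subgroup.mem_centralizer_singleton_iff.2 rfl, hh⟩⟩, inferInstance⟩
  omega

lemma four_mul_sset (hneg : ∃ z ∈ H, z.1 = -1) {h : H} (hh : IsRS H h) :
    Nat.card H ≤ 4 * Nat.card (sset H h) := by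
  obtain ⟨h1, -, h4⟩ := card_torus H hdet hp hneg hh
  have h2 := card_sset H hdet hp hh
  have hn : Nat.card (nset H h) ≤ 2 * Nat.card (cent H h) := by
    rcases card_nset H hdet hh with e | e <;> omega
  set c := Nat.card (cent H h)
  set r := Nat.card {x : H // x ∈ cent H h ∧ IsRS H x}
  nlinarith [Nat.mul_le_mul_left (Nat.card (sset H h)) hn,
    Nat.mul_le_mul_left (Nat.card H) (show c ≤ 2 * r by omega)]

lemma two_mul_sset (hneg : ∃ z ∈ H, z.1 = -1) {h : H} (hh : IsRS H h)
    (hn : Nat.card (nset H h) = Nat.card (cent H h)) :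
    Nat.card H ≤ 2 * Nat.card (sset H h) := by
  obtain ⟨h1, -, h4⟩ := card_torus H hdet hp hneg hh
  have h2 := card_sset H hdet hp hh
  rw [hn] at h2
  set c := Nat.card (cent H h)
  set r := Nat.card {x : H // x ∈ cent H h ∧ IsRS H x}
  nlinarith [Nat.mul_le_mul_left (Nat.card H) (show c ≤ 2 * r by omega)]

omit [Fact p.Prime] [CharP k p] hp [Finite H] in
lemma card_borel_part :
    Nat.card (BH H) = Nat.card (PH H) * Nat.card (diagHom H).range := by
  let f : BH H →* kˣ :=
    { toFun := fun b => diagHom H ⟨b.1.1, b.1.2, b.2⟩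
      map_one' := map_one (diagHom H)
      map_mul' := fun a b => map_mul (diagHom H) ⟨a.1.1, a.1.2, a.2⟩ ⟨b.1.1, b.1.2, b.2⟩ }
  have hker : Nat.card f.ker = Nat.card (PH H) := by
    refine Nat.card_congr ⟨fun b => ⟨b.1.1, ?_⟩, fun u => ⟨⟨u.1, u.2.1⟩, ?_⟩, fun _ => rfl,
      fun _ => rfl⟩
    · have h00 : mat H b.1.1 0 0 = 1 := congrArg Units.val b.2
      exact ⟨b.1.2, h00, show mat H b.1.1 1 1 = 1 by
        rw [(diag_of_mem_BH H hdet b.1.2).1, h00, inv_one]⟩
    · exact Units.ext (show mat H u.1 0 0 = 1 from u.2.2.1)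
  have hrange : f.range = (diagHom H).range := by
    ext a
    exact ⟨fun ⟨b, hb⟩ => ⟨_, hb⟩, fun ⟨b, hb⟩ => ⟨⟨⟨b.1, b.2.1⟩, b.2.2⟩, hb⟩⟩
  rw [Subgroup.card_eq_card_quotient_mul_card_subgroup f.ker, hker,
    Nat.card_congr (QuotientGroup.quotientKerEquivRange f).toEquiv, hrange, mul_comm]

/-- The index of the Borel part is congruent to one modulo `q`. -/
lemma index_mod (hu : PH H ≠ ⊥) :
    ∃ s : ℕ, Nat.card (H ⧸ BH H) = 1 + s * Nat.card (PH H) := by
  classical
  letI : Fintype H := Fintype.ofFinite H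
  letI : Fintype (PH H) := Fintype.ofFinite _
  letI : Fintype (H ⧸ BH H) := Fintype.ofFinite _
  letI : Fintype (Quotient (MulAction.orbitRel (PH H) (H ⧸ BH H))) := Fintype.ofFinite _
  have burn := MulAction.sum_card_fixedBy_eq_card_orbits_mul_card_group (PH H) (H ⧸ BH H)
  have hfix : ∀ u : PH H, u ≠ 1 →
      Fintype.card (MulAction.fixedBy (H ⧸ BH H) u) = 1 := by
    intro u hu1
    rw [Fintype.card_eq_one_iff]
    have hbase : u • ((1 : H) : H ⧸ BH H) = ((1 : H) : H ⧸ BH H) := by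
      show ((u.1 * 1 : H) : H ⧸ BH H) = _
      rw [QuotientGroup.eq, mul_one, mul_one]
      exact inv_mem u.2.1
    refine ⟨⟨_, hbase⟩, ?_⟩
    rintro ⟨x, hx⟩
    apply Subtype.ext
    induction x using QuotientGroup.induction_on with
    | _ x =>
      have hx' : x⁻¹ * u.1 * x ∈ BH H := by
        have e : ((u.1 * x : H) : H ⧸ BH H) = (x : H ⧸ BH H) := hx
        rw [QuotientGroup.eq] at e
        have := inv_mem e
        rwa [_root_.mul_inv_rev, inv_inv, ← mul_assoc] at this
      show ((x : H) : H ⧸ BH H) = ((1 : H) : H ⧸ BH H)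
      rw [QuotientGroup.eq, mul_one]
      exact inv_mem (mem_BH_of_conj H hdet hp u.2 (fun e => hu1 (Subtype.ext e)) hx')
  have h1 : Fintype.card (MulAction.fixedBy (H ⧸ BH H) (1 : PH H)) = Nat.card (H ⧸ BH H) := by
    rw [Nat.card_eq_fintype_card]
    exact Fintype.card_congr (Equiv.subtypeUnivEquiv (fun x => one_smul _ x))
  rw [Finset.sum_eq_add_sum_sdiff_singleton_of_mem (Finset.mem_univ (1 : PH H)), h1,
    Finset.sum_congr rfl fun u hu' => hfix u (by simpa using hu')] at burn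
  simp only [Finset.sum_const, smul_eq_mul, mul_one, ← Finset.compl_eq_univ_sdiff,
    Finset.card_compl, Finset.card_singleton] at burn
  rw [← Nat.card_eq_fintype_card (α := PH H)] at burn
  set q := Nat.card (PH H)
  set o := Fintype.card (Quotient (MulAction.orbitRel (PH H) (H ⧸ BH H)))
  have hq : 1 ≤ q := Nat.card_pos
  have hm : 1 ≤ Nat.card (H ⧸ BH H) := Nat.card_pos
  refine ⟨o - 1, ?_⟩
  rcases o with _ | o
  · omega
  · rw [Nat.add_sub_cancel]
    rw [Nat.succ_mul] at burn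
    omega

/-- Counting the elements which are neither central nor regular semisimple. -/
lemma card_not_RS (hneg : ∃ z ∈ H, z.1 = -1)
    (hconj : ∀ g : H, (mat H g).trace = 2 → ∃ x : H, x⁻¹ * g * x ∈ PH H) :
    Nat.card {g : H // ¬ IsRS H g} + 2 * Nat.card (H ⧸ BH H) =
      2 + 2 * Nat.card (H ⧸ BH H) * Nat.card (PH H) := by
  classical
  obtain ⟨z, hz, hoz⟩ := exists_neg_one H hp hneg
  have hzc : ∀ g : H, z * g = g * z := fun g => mat_inj H (by simp [mat_mul, hz])
  have hzz : z * z = 1 := mat_inj H (by simp [mat_mul, hz, mat_one])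
  have hztr : ∀ g : H, (mat H (z * g)).trace = -(mat H g).trace := by
    intro g; rw [mat_mul, hz, neg_one_mul, Matrix.trace_neg]
  let e : Bool → H := fun b => if b then z else 1
  have he2 : ∀ b, e b * e b = 1 := by intro b; cases b <;> simp [e, hzz]
  have hec : ∀ b g, e b * g = g * e b := by intro b g; cases b <;> simp [e, hzc]
  let F : Bool × (H ⧸ BH H) × {u : PH H // u ≠ 1} → H :=
    fun t => e t.1 * (t.2.1.out * t.2.2.1.1 * t.2.1.out⁻¹)
  have htrF : ∀ t, (mat H (F t)).trace = if t.1 then -2 else 2 := by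
    rintro ⟨b, x, u⟩
    have : (mat H (x.out * u.1.1 * x.out⁻¹)).trace = 2 := by
      rw [trace_conj H hdet, trace_of_mem_PH H u.1.2]
    cases b
    · simp only [F, e, Bool.false_eq_true, if_false, one_mul, this]
    · simp only [F, e, if_true, hztr, this]
  have h22 : (-2 : k) ≠ 2 := fun h => four_ne (k := k) hp (by linear_combination -h)
  have hF : Function.Injective F := by
    rintro ⟨b, x, u⟩ ⟨b', x', u'⟩ h
    have hb : b = b' := by
      have := congrArg (fun g => (mat H g).trace) h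
      simp only [htrF] at this
      cases b <;> cases b'
      · rfl
      · exact absurd (by simpa using this.symm) h22
      · exact absurd (by simpa using this) h22
      · rfl
    subst hb
    simp only [F] at h
    have h' := mul_left_cancel h
    have hxx : x'.out⁻¹ * x.out ∈ BH H := by
      have := mem_BH_of_conj H hdet hp (x := (x'.out⁻¹ * x.out)⁻¹) u.1.2
        (fun e => u.2 (Subtype.ext e)) (by
          rw [inv_inv]
          have : x'.out⁻¹ * x.out * u.1.1 * (x'.out⁻¹ * x.out)⁻¹ = u'.1.1 := by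
            calc x'.out⁻¹ * x.out * u.1.1 * (x'.out⁻¹ * x.out)⁻¹
                = x'.out⁻¹ * (x.out * u.1.1 * x.out⁻¹) * x'.out := by group
              _ = u'.1.1 := by rw [h']; group
          rw [this]
          exact u'.1.2.1)
      simpa using inv_mem this
    have hx : x' = x := by
      rw [← x'.out_eq', ← x.out_eq', QuotientGroup.eq]
      exact hxx
    subst hx
    have : u.1.1 = u'.1.1 := by simpa using h'
    simp [Subtype.ext (Subtype.ext this)]
  have hR : Set.range F = {g | ¬ IsRS H g ∧ g ≠ 1 ∧ g ≠ z} := by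
    ext g
    constructor
    · rintro ⟨t, rfl⟩
      refine ⟨?_, ?_, ?_⟩
      · rw [IsRS, not_not, htrF]
        rcases t with ⟨b, _, _⟩
        cases b <;> norm_num
      all_goals
        obtain ⟨b, x, u⟩ := t
        intro h
        have htr := congrArg (fun g => (mat H g).trace) h
        simp only [htrF] at htr
        have hu1 : u.1.1 ≠ 1 := fun e => u.2 (Subtype.ext e)
      · rw [mat_one, Matrix.trace_one, Fintype.card_fin] at htr
        cases b
        · exact hu1 (by simpa [F, e] using h)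
        · exact h22 (by simpa using htr)
      · rw [hz, Matrix.trace_neg, Matrix.trace_one, Fintype.card_fin] at htr
        cases b
        · exact h22 (by simpa using htr.symm)
        · exact hu1 (by simpa [F, e] using h)
    · rintro ⟨hg, hg1, hgz⟩
      have h4 : ((mat H g).trace - 2) * ((mat H g).trace + 2) = 0 := by
        linear_combination (not_not.1 hg : (mat H g).trace ^ 2 = 4)
      obtain ⟨b, hb, hb1⟩ : ∃ b, (mat H (e b * g)).trace = 2 ∧ e b * g ≠ 1 := by
        rcases mul_eq_zero.1 h4 with h | h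
        · exact ⟨false, by simpa [e] using sub_eq_zero.1 h, by simpa [e] using hg1⟩
        · refine ⟨true, ?_, fun h1 => hgz ?_⟩
          · simp only [e, if_true, hztr]; linear_combination -h
          · simp only [e, if_true] at h1
            rw [← mul_one z, ← h1, ← mul_assoc, hzz, one_mul]
      obtain ⟨x, hx⟩ := hconj _ hb
      set y : H := ((x : H) : H ⧸ BH H).out
      have hy : x⁻¹ * y ∈ BH H := QuotientGroup.eq.1 (((x : H) : H ⧸ BH H).out_eq').symm
      have hu : y⁻¹ * (e b * g) * y ∈ PH H := by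
        have := conj_mem_PH H hdet (inv_mem hy) hx
        have e' : (x⁻¹ * y)⁻¹ * (x⁻¹ * (e b * g) * x) * (x⁻¹ * y)⁻¹⁻¹ =
            y⁻¹ * (e b * g) * y := by group
        rwa [e'] at this
      refine ⟨(b, (x : H ⧸ BH H), ⟨⟨_, hu⟩, fun h1 => hb1 ?_⟩), ?_⟩
      · have h1' := congrArg Subtype.val h1
        simp at h1'
        have := congrArg (fun w => y * w * y⁻¹) h1'
        simpa [mul_assoc] using this
      · show e b * (y * (y⁻¹ * (e b * g) * y) * y⁻¹) = g
        have e' : y * (y⁻¹ * (e b * g) * y) * y⁻¹ = e b * g := by group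
        rw [e', ← mul_assoc, he2, one_mul]
  have hz1 : (1 : H) ≠ z := fun h => by simp [← h] at hoz
  have hsplit : {g : H | ¬ IsRS H g} = Set.range F ∪ {1, z} := by
    rw [hR]
    ext g
    constructor
    · intro h
      by_cases h1 : g = 1
      · exact Or.inr (Or.inl h1)
      by_cases h2 : g = z
      · exact Or.inr (Or.inr h2)
      exact Or.inl ⟨h, h1, h2⟩
    · rintro (h | rfl | rfl)
      · exact h.1
      all_goals
        simp [IsRS, mat_one, hz]; norm_num
  have hd : Disjoint (Set.range F) ({1, z} : Set H) := by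
    rw [hR, Set.disjoint_left]
    rintro g ⟨-, h1, h2⟩ (h | h) <;> contradiction
  have hcount : Nat.card {g : H // ¬ IsRS H g} =
      2 * (Nat.card (H ⧸ BH H) * (Nat.card (PH H) - 1)) + 2 := by
    calc Nat.card {g : H // ¬ IsRS H g} = {g : H | ¬ IsRS H g}.ncard :=
          Nat.card_coe_set_eq _
      _ = _ := by
        rw [hsplit, Set.ncard_union_eq hd, Set.ncard_pair hz1,
          ← Nat.card_coe_set_eq (Set.range F), Nat.card_range_of_injective hF, Nat.card_prod,
          Nat.card_prod]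
        congr 2
        · simp
        congr 1
        letI : Fintype (PH H) := Fintype.ofFinite _
        rw [Nat.card_eq_fintype_card, Nat.card_eq_fintype_card, Fintype.card_subtype_compl,
          Fintype.card_subtype_eq]
  have hq : 1 ≤ Nat.card (PH H) := Nat.card_pos
  obtain ⟨q', hq'⟩ : ∃ q', Nat.card (PH H) = q' + 1 := ⟨_, (Nat.sub_add_cancel hq).symm⟩
  rw [hcount, hq', Nat.add_sub_cancel]
  ring

lemma card_RS (hneg : ∃ z ∈ H, z.1 = -1)
    (hconj : ∀ g : H, (mat H g).trace = 2 → ∃ x : H, x⁻¹ * g * x ∈ PH H) :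
    (Nat.card {g : H // IsRS H g} : ℤ) =
      Nat.card (H ⧸ BH H) * (Nat.card (PH H) * Nat.card (diagHom H).range) - 2 -
        2 * Nat.card (H ⧸ BH H) * Nat.card (PH H) + 2 * Nat.card (H ⧸ BH H) := by
  classical
  have h1 := card_not_RS H hdet hp hneg hconj
  have h2 : Nat.card {g : H // IsRS H g} + Nat.card {g : H // ¬ IsRS H g} = Nat.card H := by
    rw [← Nat.card_sum]; exact Nat.card_congr (Equiv.sumCompl _)
  have h3 := Subgroup.card_eq_card_quotient_mul_card_subgroup (BH H)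
  rw [card_borel_part H hdet] at h3
  rw [h3] at h2
  zify at h1 h2
  linear_combination h2 - h1

/-- The counting lemma. -/
theorem sub_one_le_card_torus (hneg : ∃ z ∈ H, z.1 = -1) (hu : PH H ≠ ⊥) (hred : BH H ≠ ⊤)
    (hconj : ∀ g : H, (mat H g).trace = 2 → ∃ x : H, x⁻¹ * g * x ∈ PH H) :
    Nat.card (PH H) ≤ Nat.card (diagHom H).range + 1 := by
  classical
  have hR := card_RS H hdet hp hneg hconj
  obtain ⟨s, hm⟩ := index_mod H hdet hp hu
  have hG : Nat.card H =
      Nat.card (H ⧸ BH H) * (Nat.card (PH H) * Nat.card (diagHom H).range) := by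
    rw [Subgroup.card_eq_card_quotient_mul_card_subgroup (BH H), card_borel_part H hdet]
  haveI : Finite (H ⊓ borel k : Subgroup (GL (Fin 2) k)) :=
    Finite.of_injective (fun b => (⟨b.1, b.2.1⟩ : H))
      (fun a b e => Subtype.ext (congrArg (fun w : H => w.1) e))
  haveI : Finite (diagHom H).range :=
    Finite.of_surjective (diagHom H).rangeRestrict (diagHom H).rangeRestrict_surjective
  set τ := Nat.card (diagHom H).range with hτdef
  set q := Nat.card (PH H) with hqdef
  set m := Nat.card (H ⧸ BH H) with hmdef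
  have hm1 : 1 < m := by
    have : 0 < m := Nat.card_pos
    rcases Nat.lt_or_ge 1 m with h | h
    · exact h
    · exfalso; apply hred
      exact Subgroup.index_eq_one.1 (show (BH H).index = 1 by
        rw [Subgroup.index]; omega)
  have hq1 : 1 < q := (Subgroup.one_lt_card_iff_ne_bot _).2 hu
  have hs : 1 ≤ s := by
    rcases s with _ | s
    · omega
    · omega
  obtain ⟨z, hz, hoz⟩ := exists_neg_one H hp hneg
  have hzB : z ∈ BH H := by rw [mem_BH, hz]; simp
  set za : (diagHom H).range := ⟨_, ⟨⟨z.1, z.2, hzB⟩, rfl⟩⟩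
  have hza : ((za.1 : kˣ) : k) = -1 := by
    show mat H z 0 0 = -1
    simp [hz]
  have hτ2 : 2 ∣ τ := by
    have : orderOf za = 2 := orderOf_eq_prime (Subtype.ext (Units.ext (by
      simp [pow_two, hza]))) fun h => one_ne_neg_one (k := k) hp (by
        rw [← hza, h]; rfl)
    rw [← this]; exact orderOf_dvd_natCard _
  have hτpos : 0 < τ := Nat.card_pos
  by_cases hτ4 : τ = 2
  · -- only the central torus
    rw [hτ4]
    have hRpos : 0 < Nat.card {g : H // IsRS H g} := by
      zify; rw [hR, hτ4]; push_cast; nlinarith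
    obtain ⟨⟨h, hh⟩⟩ := (Nat.card_pos_iff.1 hRpos).1
    have h4 := four_mul_sset H hdet hp hneg hh
    have hsub : Nat.card (sset H h) ≤ Nat.card {g : H // IsRS H g} :=
      Nat.card_le_card_of_injective (fun g => (⟨g.1, g.2.1⟩ : {g : H // IsRS H g}))
        (fun a b e => Subtype.ext (congrArg (fun w => w.1) e))
    rw [hG, hτ4] at h4
    rw [hτ4] at hR
    push_cast at hR
    have hq3 : (q : ℤ) ≤ 3 := arith_small (m := (m : ℤ)) (by exact_mod_cast hm1)
      (R := ((Nat.card {g : H // IsRS H g} : ℕ) : ℤ)) (S := ((Nat.card (sset H h) : ℕ) : ℤ))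
      (by linear_combination hR) (by exact_mod_cast hsub) (by exact_mod_cast h4)
    omega
  -- a regular element in the Borel part
  have hτge : 4 ≤ τ := by omega
  obtain ⟨a, ha⟩ : ∃ a : (diagHom H).range, a ≠ 1 ∧ a ≠ za := by
    by_contra hcon
    push Not at hcon
    have : τ ≤ 2 := by
      rw [hτdef]
      refine le_trans (Nat.card_le_card_of_injective
        (fun a : (diagHom H).range => decide (a = 1)) ?_) (by simp)
      intro a b hab
      simp only [decide_eq_decide] at hab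
      by_cases h : a = 1
      · rw [h, hab.1 h]
      · rw [hcon a h, hcon b fun e => h (hab.2 e)]
    omega
  obtain ⟨ha1, haz⟩ := ha
  obtain ⟨a, b, hb⟩ := a
  let h0 : H := ⟨b.1, b.2.1⟩
  have hh0B : h0 ∈ BH H := b.2.2
  have ha00 : mat H h0 0 0 = (a : k) := congrArg Units.val hb
  have hh0 : IsRS H h0 := by
    obtain ⟨e1, e2⟩ := borel_trace_sq (a := (b.1 : GL (Fin 2) k)) b.2.2 (hdet _ b.2.1)
    intro h
    have h' : (b.1 : GL (Fin 2) k).1.trace ^ 2 = 4 := h
    rw [h', sub_self] at e2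
    have hsq : mat H h0 0 0 = mat H h0 1 1 := sub_eq_zero.1 (eq_zero_of_pow_eq_zero e2.symm)
    rw [show mat H h0 1 1 = (mat H h0 0 0)⁻¹ from e1, ha00] at hsq
    have : ((a : k) - 1) * ((a : k) + 1) = 0 := by
      have := mul_inv_cancel₀ a.ne_zero
      linear_combination (a : k) * hsq + this
    rcases mul_eq_zero.1 this with h1 | h1
    · exact ha1 (Subtype.ext (Units.ext (sub_eq_zero.1 h1)))
    · exact haz (Subtype.ext (Units.ext (by rw [hza]; exact eq_neg_of_add_eq_zero_left h1)))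
  have hCB : cent H h0 ≤ BH H := by
    intro c hc
    obtain ⟨α, β, hαβ⟩ := exists_eq_smul_add_of_commute
      (not_scalar_of_trace_sq_ne (det_mat H hdet h0) hh0) ((mem_cent H).1 hc)
    rw [mem_BH, hαβ]
    simp [show mat H h0 1 0 = 0 from hh0B]
  have hC0 : Nat.card (cent H h0) = τ := by
    refine Nat.card_congr (Equiv.ofBijective
      (fun c : cent H h0 =>
        (⟨_, ⟨⟨c.1.1, c.1.2, hCB c.2⟩, rfl⟩⟩ : (diagHom H).range)) ⟨?_, ?_⟩)
    · intro c c' h
      have h00 : mat H c.1 0 0 = mat H c'.1 0 0 := congrArg (fun w => ((w.1 : kˣ) : k)) h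
      have hin : c.1⁻¹ * c'.1 ∈ cent H h0 := mul_mem (inv_mem c.2) c'.2
      have hb00 : mat H (c.1⁻¹ * c'.1) 0 0 = 1 := by
        have e1 := (borel_mul_apply (a := ((c.1⁻¹ : H) : GL (Fin 2) k))
          (b := ((c'.1 : H) : GL (Fin 2) k)) (hCB (inv_mem c.2)) (hCB c'.2)).1
        have e2 := (borel_mul_apply (a := ((c.1⁻¹ : H) : GL (Fin 2) k))
          (b := ((c.1 : H) : GL (Fin 2) k)) (hCB (inv_mem c.2)) (hCB c.2)).1
        show mat H _ 0 0 = 1
        rw [mat_mul]
        rw [show ((c.1⁻¹ : H) : GL (Fin 2) k) * ((c.1 : H) : GL (Fin 2) k) = 1 by simp] at e2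
        simp only [Units.val_one, Matrix.one_apply_eq] at e2
        refine e1.trans ?_
        show mat H c.1⁻¹ 0 0 * mat H c'.1 0 0 = 1
        rw [← h00]
        exact e2.symm
      have hP : c.1⁻¹ * c'.1 ∈ PH H :=
        ⟨hCB hin, hb00, show mat H (c.1⁻¹ * c'.1) 1 1 = 1 by
          rw [(diag_of_mem_BH H hdet (hCB hin)).1, hb00, inv_one]⟩
      have hnr : ¬ IsRS H (c.1⁻¹ * c'.1) := by
        rw [IsRS, not_not, trace_of_mem_PH H hP]; norm_num
      apply Subtype.ext
      rcases eq_or_eq_of_cent H hdet hh0 hin hnr with e | e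
      · exact inv_mul_eq_one.1 (mat_inj H (e.trans (mat_one H).symm))
      · exfalso
        rw [e] at hb00
        simp at hb00
        exact one_ne_neg_one (k := k) hp hb00.symm
    · rintro ⟨w, ⟨y, hy⟩⟩
      let yH : H := ⟨y.1, y.2.1⟩
      have hyB : yH ∈ BH H := y.2.2
      have hcomm : ∀ u ∈ BH H, h0⁻¹ * (u * h0 * u⁻¹) ∈ PH H := by
        intro u hu
        have hi := inv_mem hh0B
        have hmem : h0⁻¹ * (u * h0 * u⁻¹) ∈ BH H := mul_mem hi (mul_mem (mul_mem hu hh0B)
          (inv_mem hu))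
        have hui : u⁻¹ ∈ BH H := inv_mem hu
        let f : BH H → k := fun v => mat H v.1 0 0
        have hf : ∀ v w : BH H, f (v * w) = f v * f w := fun v w =>
          (borel_mul_apply (a := (v.1 : GL (Fin 2) k)) (b := (w.1 : GL (Fin 2) k)) v.2 w.2).1
        have hf1 : f 1 = 1 := by simp [f, mat_one]
        have h00 : mat H (h0⁻¹ * (u * h0 * u⁻¹)) 0 0 = 1 := by
          show f (⟨h0, hh0B⟩⁻¹ * (⟨u, hu⟩ * ⟨h0, hh0B⟩ * ⟨u, hu⟩⁻¹)) = 1
          rw [hf, hf, hf]
          have a1 := hf ⟨h0, hh0B⟩⁻¹ ⟨h0, hh0B⟩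
          have a2 := hf ⟨u, hu⟩ ⟨u, hu⟩⁻¹
          rw [inv_mul_cancel, hf1] at a1
          rw [mul_inv_cancel, hf1] at a2
          linear_combination (-1 : k) * a1 - f (⟨h0, hh0B⟩⁻¹) * f ⟨h0, hh0B⟩ * a2
        exact ⟨hmem, h00, show mat H (h0⁻¹ * (u * h0 * u⁻¹)) 1 1 = 1 by
          rw [(diag_of_mem_BH H hdet hmem).1, h00, inv_one]⟩
      let ω : PH H → PH H := fun u => ⟨_, hcomm u.1 u.2.1⟩
      have hω : Function.Injective ω := by
        intro u v huv
        have e : u.1 * h0 * u.1⁻¹ = v.1 * h0 * v.1⁻¹ := by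
          have := congrArg Subtype.val huv
          simpa [ω] using this
        have hc : v.1⁻¹ * u.1 ∈ cent H h0 := by
          rw [Subgroup.mem_centralizer_singleton_iff]
          calc v.1⁻¹ * u.1 * h0 = v.1⁻¹ * (u.1 * h0 * u.1⁻¹) * u.1 := by group
            _ = v.1⁻¹ * (v.1 * h0 * v.1⁻¹) * u.1 := by rw [e]
            _ = h0 * (v.1⁻¹ * u.1) := by group
        have hP : v.1⁻¹ * u.1 ∈ PH H := mul_mem (inv_mem v.2) u.2
        have hnr : ¬ IsRS H (v.1⁻¹ * u.1) := by
          rw [IsRS, not_not, trace_of_mem_PH H hP]; norm_num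
        apply Subtype.ext
        rcases eq_or_eq_of_cent H hdet hh0 hc hnr with e | e
        · exact (inv_mul_eq_one.1 (mat_inj H (e.trans (mat_one H).symm))).symm
        · exfalso
          have h2 := PH_e00 H hP
          rw [e] at h2
          simp at h2
          exact one_ne_neg_one (k := k) hp h2.symm
      obtain ⟨u, hu⟩ := (Finite.injective_iff_surjective.1 hω) ⟨_, hcomm yH hyB⟩
      have hu' : u.1 * h0 * u.1⁻¹ = yH * h0 * yH⁻¹ := by
        simpa [ω] using congrArg Subtype.val hu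
      have hc : u.1⁻¹ * yH ∈ cent H h0 := by
        rw [Subgroup.mem_centralizer_singleton_iff]
        calc u.1⁻¹ * yH * h0 = u.1⁻¹ * (yH * h0 * yH⁻¹) * yH := by group
          _ = u.1⁻¹ * (u.1 * h0 * u.1⁻¹) * yH := by rw [hu']
          _ = h0 * (u.1⁻¹ * yH) := by group
      refine ⟨⟨_, hc⟩, Subtype.ext ?_⟩
      show diagHom H _ = w
      rw [← hy]
      apply Units.ext
      rw [diagHom_apply, diagHom_apply]
      show mat H (u.1⁻¹ * yH) 0 0 = mat H yH 0 0
      have e1 := (borel_mul_apply (a := ((u.1⁻¹ : H) : GL (Fin 2) k))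
        (b := (yH : GL (Fin 2) k)) (inv_mem (s := BH H) u.2.1) hyB).1
      rw [show mat H (u.1⁻¹ * yH) 0 0 = _ from e1]
      show mat H u.1⁻¹ 0 0 * mat H yH 0 0 = _
      rw [PH_e00 H (inv_mem u.2), one_mul]
  -- the count
  have hS0 := card_sset H hdet hp hh0
  obtain ⟨hr0, -, -⟩ := card_torus H hdet hp hneg hh0
  rw [hC0] at hr0
  rw [hG] at hS0
  have hle : ∀ T : Set H, (∀ g ∈ T, IsRS H g) →
      T.ncard ≤ Nat.card {g : H // IsRS H g} := by
    intro T hT
    rw [← Nat.card_coe_set_eq]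
    exact Nat.card_le_card_of_injective (fun g => (⟨g.1, hT g.1 g.2⟩ : {g : H // IsRS H g}))
      (fun a b e => Subtype.ext (congrArg (fun w => w.1) e))
  have htwo : ∀ h1 h2 : H, IsRS H h1 → IsRS H h2 → h1 ∉ sset H h0 → h2 ∉ sset H h0 →
      h2 ∉ sset H h1 → Nat.card (sset H h0) + Nat.card (sset H h1) + Nat.card (sset H h2) ≤
        Nat.card {g : H // IsRS H g} := by
    intro h1 h2 r1 r2 n1 n2 n12
    have d1 := sset_disjoint H hdet r1 n1
    have d2 := sset_disjoint H hdet r2 n2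
    have d3 := sset_disjoint H hdet r2 n12
    rw [Nat.card_coe_set_eq, Nat.card_coe_set_eq, Nat.card_coe_set_eq,
      ← Set.ncard_union_eq d1, ← Set.ncard_union_eq (Set.disjoint_union_left.2 ⟨d2, d3⟩)]
    exact hle _ (by rintro g ((h | h) | h) <;> exact h.1)
  have hone : ∀ h1 : H, IsRS H h1 → h1 ∉ sset H h0 →
      Nat.card (sset H h0) + Nat.card (sset H h1) ≤ Nat.card {g : H // IsRS H g} := by
    intro h1 r1 n1
    rw [Nat.card_coe_set_eq, Nat.card_coe_set_eq,
      ← Set.ncard_union_eq (sset_disjoint H hdet r1 n1)]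
    exact hle _ (by rintro g (h | h) <;> exact h.1)
  have hex : ∀ T : Set H, T.ncard < Nat.card {g : H // IsRS H g} →
      ∃ g, IsRS H g ∧ g ∉ T := by
    intro T hT
    by_contra hcon
    push Not at hcon
    have := Nat.card_le_card_of_injective (fun g : {g : H // IsRS H g} => (⟨g.1, hcon g.1 g.2⟩ : T))
      (fun a b e => Subtype.ext (congrArg (fun w => w.1) e))
    rw [Nat.card_coe_set_eq] at this
    omega
  set R := Nat.card {g : H // IsRS H g} with hRdef
  set r0 := Nat.card {c : H // c ∈ cent H h0 ∧ IsRS H c}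
  set S0 := Nat.card (sset H h0) with hS0def
  have hR' : (R : ℤ) = m * (q * τ) - 2 - 2 * m * q + 2 * m := hR
  have hr0' : (r0 : ℤ) = τ - 2 := by omega
  rcases card_nset H hdet hh0 with hN0 | hN0
  · exfalso
    rw [hN0, hC0] at hS0
    have hS0' : (S0 : ℤ) = m * q * (τ - 2) := by
      apply mul_right_cancel₀ (show (τ : ℤ) ≠ 0 by positivity)
      have h5 : (S0 : ℤ) * τ = m * (q * τ) * r0 := by exact_mod_cast hS0
      rw [h5, hr0']; ring
    have hlt : S0 < R := by
      zify; rw [hS0', hR']; zify at hm1; nlinarith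
    obtain ⟨h1, r1, n1⟩ := hex (sset H h0) (by rw [← Nat.card_coe_set_eq]; exact hlt)
    have h41 := four_mul_sset H hdet hp hneg r1
    have hle1 := hone h1 r1 n1
    rw [hG] at h41
    have hq3 : 3 ≤ q := by
      by_contra h
      have hq2 : Nat.card (PH H) = 2 := by omega
      obtain ⟨u, hu1⟩ := Subgroup.ne_bot_iff_exists_ne_one.1 hu
      have h2 : u ^ Nat.card (PH H) = 1 := pow_card_eq_one'
      rw [hq2] at h2
      have := congrArg (fun w : PH H => mat H w.1 0 1) h2
      simp [pow_two, mat_mul, Matrix.mul_apply, Fin.sum_univ_two, PH_e00 H u.2, PH_e11 H u.2,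
        mat_one] at this
      apply hu1 (Subtype.ext (mat_inj H ?_))
      have h01 : mat H u.1 0 1 = 0 := by
        have h' : (2 : k) * mat H u.1 0 1 = 0 := by linear_combination this
        exact (mul_eq_zero.1 h').resolve_left (two_ne (k := k) hp)
      ext i j
      fin_cases i <;> fin_cases j <;>
        simp [mat_one, h01, PH_e00 H u.2, PH_e11 H u.2, PH_e10 H u.2]
    exact arith_one (S1 := ((Nat.card (sset H h1) : ℕ) : ℤ)) (by exact_mod_cast hm1) (by exact_mod_cast hq3) (by exact_mod_cast hτge)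
      hR' hS0' (by exact_mod_cast h41) (by exact_mod_cast hle1)
  rw [hN0, hC0] at hS0
  have hS0' : 2 * (S0 : ℤ) = m * q * (τ - 2) := by
    apply mul_right_cancel₀ (show (τ : ℤ) ≠ 0 by positivity)
    have h5 : (S0 : ℤ) * (2 * τ) = m * (q * τ) * r0 := by exact_mod_cast hS0
    linear_combination h5 + (m : ℤ) * (q * τ) * hr0'
  have hlt : S0 < R := by
    zify; zify at hm1 hτge hq1; nlinarith
  obtain ⟨h1, r1, n1⟩ := hex (sset H h0) (by rw [← Nat.card_coe_set_eq]; exact hlt)
  have hle1 := hone h1 r1 n1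
  obtain ⟨hr1, hev, hc4⟩ := card_torus H hdet hp hneg r1
  have hS1 := card_sset H hdet hp r1
  rw [hG] at hS1
  rcases card_nset H hdet r1 with hN1 | hN1
  · exfalso
    have h21 := two_mul_sset H hdet hp hneg r1 hN1
    rw [hG] at h21
    exact arith_two (T := ((Nat.card (sset H h1) : ℕ) : ℤ)) (by exact_mod_cast hm1) (by exact_mod_cast hq1) hR' hS0'
      (by exact_mod_cast h21) (by exact_mod_cast hle1)
  by_cases hRS : R = S0 + Nat.card (sset H h1)
  · set S1 := Nat.card (sset H h1)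
    set c := Nat.card (cent H h1)
    set r1' := Nat.card {x : H // x ∈ cent H h1 ∧ IsRS H x}
    rw [hN1] at hS1
    obtain ⟨c2, hc2⟩ := hev
    have h5 : (S1 : ℤ) * (2 * c) = m * (q * τ) * r1' := by exact_mod_cast hS1
    have hr1' : (r1' : ℤ) = c - 2 := by omega
    have hS1' : 2 * (S1 : ℤ) = m * q * τ - 4 - 2 * m * q + 4 * m := by
      have hh : (R : ℤ) = S0 + S1 := by exact_mod_cast hRS
      linear_combination 2 * hR' - hS0' - 2 * hh
    have hm' : (m : ℤ) = 1 + s * q := by exact_mod_cast hm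
    have hc2' : (c : ℤ) = 2 * c2 := by exact_mod_cast hc2
    have key : 2 * (c2 : ℤ) * (m - 2 * s) = m * τ := by
      apply mul_right_cancel₀ (show (2 * q : ℤ) ≠ 0 by positivity)
      linear_combination -h5 + (c : ℤ) * hS1' - ((m : ℤ) * (q * τ)) * hr1' + 4 * (c : ℤ) * hm' - 2 * (q : ℤ) * ((m : ℤ) - 2 * s) * hc2'
    have hd : (m : ℤ) ∣ 2 * c2 := by
      obtain ⟨t, ht⟩ := hτ2
      have ht' : (τ : ℤ) = 2 * t := by exact_mod_cast ht
      have hcs : IsCoprime (m : ℤ) s := ⟨1, -q, by rw [hm']; ring⟩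
      refine hcs.dvd_of_dvd_mul_right ⟨c2 - t, ?_⟩
      apply mul_left_cancel₀ (two_ne_zero (α := ℤ))
      linear_combination -key - (m : ℤ) * ht'
    obtain ⟨j, hj⟩ := hd
    have hj' : j * ((m : ℤ) - 2 * s) = τ := by
      apply mul_left_cancel₀ (show (m : ℤ) ≠ 0 by positivity)
      linear_combination key - ((m : ℤ) - 2 * s) * hj
    have hjpos : 1 ≤ j := by
      by_contra h
      have : (m : ℤ) * j ≤ 0 := mul_nonpos_of_nonneg_of_nonpos (by positivity) (by omega)
      omega
    have hs' : (1 : ℤ) ≤ s := by exact_mod_cast hs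
    have hq2 : (2 : ℤ) ≤ q := by exact_mod_cast hq1
    have := arith_final hm' hs' hq2 hj' hjpos
    exact_mod_cast this
  · exfalso
    obtain ⟨h2, r2, n2⟩ := hex (sset H h0 ∪ sset H h1) (by
      rw [Set.ncard_union_eq (sset_disjoint H hdet r1 n1), ← Nat.card_coe_set_eq,
        ← Nat.card_coe_set_eq]
      omega)
    have hle2 := htwo h1 h2 r1 r2 n1 (fun h => n2 (Or.inl h)) (fun h => n2 (Or.inr h))
    have h41 := four_mul_sset H hdet hp hneg r1
    have h42 := four_mul_sset H hdet hp hneg r2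
    rw [hG] at h41 h42
    refine arith_two (T := ((Nat.card (sset H h1) + Nat.card (sset H h2) : ℕ) : ℤ))
      (by exact_mod_cast hm1) (by exact_mod_cast hq1) hR' hS0' ?_ ?_
    · have : m * (q * τ) ≤ 2 * (Nat.card (sset H h1) + Nat.card (sset H h2)) := by omega
      exact_mod_cast this
    · have : S0 + (Nat.card (sset H h1) + Nat.card (sset H h2)) ≤ R := by omega
      exact_mod_cast this

end

end Fermat.Agent.ClassField.TWElement
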