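import Fermat.Agent.ClassField.S56.TW.Cocycle
import Fermat.Agent.ClassField.S56.TW.SL2Count
import Mathlib.GroupTheory.Sylow
import Mathlib.RingTheory.RootsOfUnity.Basic
import Mathlib.RingTheory.IntegralDomain

/-!
# Vanishing of the first cohomology of an irreducible subgroup of `SL₂` on traceless matrices
-/

set_option autoImplicit false

open Matrix
open scoped Pointwise

namespace Fermat.Agent.ClassField.TWElement

variable {K : Type*} [Field K] {p : ℕ} [Fact p.Prime] [CharP K p]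

lemma pow_char_eq_one_of_trace_two {g : GL (Fin 2) K} (hdet : g.1.det = 1)
    (ht : g.1.trace = 2) : g ^ p = 1 := by
  have hN : (g.1 - 1) * (g.1 - 1) = 0 := by
    rw [sub_mul, mul_sub, mul_sub, mul_self_eq, hdet, ht]
    simp [two_smul]
    abel
  have hn : ∀ n : ℕ, (g ^ n).1 = 1 + (n : K) • (g.1 - 1) := by
    intro n
    induction n with
    | zero => simp
    | succ n ih =>
      calc (g ^ (n + 1)).1 = (g ^ n).1 * (1 + (g.1 - 1)) := by
            rw [add_sub_cancel, pow_succ, Units.val_mul]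
        _ = 1 + (n : K) • (g.1 - 1) + (g.1 - 1) + (n : K) • ((g.1 - 1) * (g.1 - 1)) := by
            rw [ih, mul_add, mul_one, add_mul, one_mul, smul_mul_assoc, ← add_assoc]
        _ = _ := by rw [hN, smul_zero, add_zero, Nat.cast_succ, add_smul, one_smul, ← add_assoc]
  apply Units.ext
  rw [hn, CharP.cast_eq_zero, zero_smul, add_zero, Units.val_one]

lemma trace_eq_two_of_pow_eq_one [IsAlgClosed K] (h2 : (2 : K) ≠ 0) {g : GL (Fin 2) K}
    (hdet : g.1.det = 1) {n : ℕ} (hg : g ^ p ^ n = 1) : g.1.trace = 2 := by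
  obtain ⟨μ, v, hv, hgv⟩ := exists_eigenvector h2 g.1
  have hpow : ∀ m : ℕ, (g ^ m).1.mulVec v = μ ^ m • v := by
    intro m
    induction m with
    | zero => simp
    | succ m ih =>
      rw [pow_succ, Units.val_mul, ← Matrix.mulVec_mulVec, hgv, Matrix.mulVec_smul, ih, smul_smul,
        ← pow_succ']
  have h1 := hpow (p ^ n)
  rw [hg, Units.val_one, Matrix.one_mulVec] at h1
  have hμ : μ ^ p ^ n = 1 := (smul_left_injective K hv (by simpa using h1)).symm
  have hμ1 : μ = 1 := by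
    have : (μ - 1) ^ p ^ n = 0 := by rw [sub_pow_char_pow, hμ, one_pow, sub_self]
    exact sub_eq_zero.mp (pow_eq_zero_iff (pow_ne_zero n (Fact.out : p.Prime).ne_zero) |>.mp this)
  obtain ⟨v', hv'⟩ := exists_gl_of_col hv
  rw [hμ1] at hgv
  obtain ⟨-, h00, h11⟩ := unipotent_of_conj hv' hgv hdet
  have : (v'⁻¹ * g * v').1.trace = g.1.trace := by
    rw [show (v'⁻¹ * g * v') = v'⁻¹ * g * v'⁻¹⁻¹ by rw [inv_inv], val_conj, trace_conjMat]
  rw [← this, Matrix.trace_fin_two, h00, h11]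
  norm_num

variable {H : Subgroup (GL (Fin 2) K)} {f : GL (Fin 2) K → M2 K}

lemma mem_PH_eq (u : H) (hu : u ∈ PH H) :
    mat H u = !![1, mat H u 0 1; 0, 1] := by
  ext i j
  fin_cases i <;> fin_cases j <;>
    simp only [Matrix.of_apply, Matrix.cons_val', Matrix.cons_val_zero, Matrix.cons_val_one,
      Matrix.cons_val_fin_one, Fin.zero_eta, Fin.mk_one]
  exacts [PH_e00 H hu, PH_e10 H hu, PH_e11 H hu]

lemma PH_ext {u v : H} (hu : u ∈ PH H) (hv : v ∈ PH H) (h : mat H u 0 1 = mat H v 0 1) :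
    u = v :=
  mat_inj H (by rw [mem_PH_eq u hu, mem_PH_eq v hv, h])

lemma PH_mul_e01 {u v : H} (hu : u ∈ PH H) (hv : v ∈ PH H) :
    mat H (u * v) 0 1 = mat H u 0 1 + mat H v 0 1 := by
  rw [mat_mul, mem_PH_eq u hu, mem_PH_eq v hv]
  simp [Matrix.mul_apply, Fin.sum_univ_two, add_comm]

lemma PH_comm {u v : H} (hu : u ∈ PH H) (hv : v ∈ PH H) : u * v = v * u :=
  PH_ext (mul_mem hu hv) (mul_mem hv hu) (by rw [PH_mul_e01 hu hv, PH_mul_e01 hv hu, add_comm])

lemma PH_pow_e01 {u : H} (hu : u ∈ PH H) (n : ℕ) :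
    mat H (u ^ n) 0 1 = (n : K) * mat H u 0 1 := by
  induction n with
  | zero => simp [mat_one]
  | succ n ih => rw [pow_succ, PH_mul_e01 (pow_mem hu n) hu, ih]; push_cast; ring

/-- Conjugation of a unipotent by an upper triangular matrix. -/
lemma conj_unipotent_e01 {g u : GL (Fin 2) K} (hg : g.1 1 0 = 0) (hu : u ∈ unipotent K) :
    g * u * g⁻¹ ∈ unipotent K ∧
      (g * u * g⁻¹).1 0 1 = g.1 0 0 / g.1 1 1 * u.1 0 1 := by
  obtain ⟨ha, hd⟩ := borel_diag_ne_zero (a := g) hg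
  obtain ⟨h10, h00, h11⟩ := mem_unipotent.mp hu
  have htr : (u.1 - 1).trace = 0 := by
    simp [Matrix.trace_fin_two, h00, h11]
    norm_num
  obtain ⟨e10, e00, e01⟩ := conjMat_borel hg htr
  have hval : conjMat g (u.1 - 1) = (g * u * g⁻¹).1 - 1 := by
    rw [map_sub, val_conj]
    congr 1
    simp [conjMat_apply]
  rw [hval] at e10 e00 e01
  simp [h10, h00] at e10 e00 e01
  have e10' : (g * u * g⁻¹).1 1 0 = 0 := by simpa using e10
  have e00' : (g * u * g⁻¹).1 0 0 = 1 := by simpa [sub_eq_zero] using e00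
  have hdt : (g * u * g⁻¹).1.det = 1 := by
    have hu1 : u.1.det = 1 := by simp [Matrix.det_fin_two, h10, h00, h11]
    rw [Units.val_mul, Units.val_mul, Matrix.det_mul, Matrix.det_mul, mul_right_comm,
      ← Matrix.det_mul, ← Units.val_mul, mul_inv_cancel, Units.val_one, Matrix.det_one, one_mul,
      hu1]
  refine ⟨⟨e10', e00', ?_⟩, by simpa using e01⟩
  rw [Matrix.det_fin_two, e10', e00'] at hdt
  linear_combination hdt

/-- The upper triangular subgroup is proper. -/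
lemma BH_ne_top (hno : NoLine H) : BH H ≠ ⊤ := by
  intro h
  obtain ⟨x, hx, hx10⟩ := hno.exists_e10
  exact hx10 ((mem_BH H (g := ⟨x, hx⟩)).mp (h ▸ Subgroup.mem_top _))

variable [Finite H] [IsAlgClosed K]

omit [CharP K p] in
lemma p_dvd_card_of_isPGroup {P : Subgroup H} (hP : IsPGroup p P) (hne : P ≠ ⊥) :
    p ∣ Nat.card P := by
  obtain ⟨n, hn⟩ := IsPGroup.iff_card.mp hP
  rcases n with _ | n
  · exact absurd (Subgroup.eq_bot_of_card_eq P (by simpa using hn)) hne
  · exact ⟨p ^ n, by rw [hn, pow_succ']⟩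

/-- The unipotent part is a Sylow subgroup. -/
lemma exists_sylow_eq (hp : p ≠ 2) (hdet : ∀ h ∈ H, h.1.det = 1) (hu : PH H ≠ ⊥) :
    ∃ Q : Sylow p H, (Q : Subgroup H) = PH H := by
  have h2 : (2 : K) ≠ 0 := two_ne hp
  have hPp : IsPGroup p (PH H) := fun u => ⟨1, Subtype.ext (Subtype.ext (by
    simpa using pow_char_eq_one_of_trace_two (p := p) (hdet _ u.1.2)
      (trace_of_mem_PH H u.2)))⟩
  obtain ⟨Q, hQ⟩ := hPp.exists_le_sylow
  refine ⟨Q, le_antisymm (fun q hq => ?_) hQ⟩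
  have htr : ∀ x ∈ (Q : Subgroup H), (mat H x).trace = 2 := fun x hx => by
    obtain ⟨n, hn⟩ := Q.2 ⟨x, hx⟩
    have := congrArg (fun z : (Q : Subgroup H) => ((z : H) : GL (Fin 2) K)) hn
    exact trace_eq_two_of_pow_eq_one (p := p) h2 (hdet _ x.2) (by simpa using this)
  obtain ⟨⟨u, huP⟩, hu1'⟩ := (PH H).ne_bot_iff_exists_ne_one.mp hu
  have hu1 : u ≠ 1 := fun e => hu1' (Subtype.ext e)
  haveI : Nontrivial (Q : Subgroup H) :=
    (Subgroup.nontrivial_iff_ne_bot _).mpr fun e => hu1 (by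
      have := hQ huP
      rw [e, Subgroup.mem_bot] at this
      exact this)
  haveI := Q.2.center_nontrivial
  obtain ⟨z, hz1⟩ := exists_ne (1 : Subgroup.center (Q : Subgroup H))
  have hcomm : ∀ x ∈ (Q : Subgroup H), x * z.1.1 = z.1.1 * x := fun x hx =>
    congrArg Subtype.val (Subgroup.mem_center_iff.mp z.2 ⟨x, hx⟩)
  have key : ∀ w x : H, w ∈ PH H → w ≠ 1 → w * x = x * w → mat H x 1 0 = 0 := by
    intro w x hw hw1 hwx
    have e := congr_fun (congr_fun (congrArg (mat H) hwx) 1) 1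
    rw [mat_mul, mat_mul, mem_PH_eq w hw] at e
    simp [Matrix.mul_apply, Fin.sum_univ_two] at e
    rcases e with e | e
    · exact e
    · exact absurd (PH_ext hw (one_mem _) (by simp [e, mat_one])) hw1
  have hzP : z.1.1 ∈ PH H := mem_PH_of_borel_trace_two H hdet hp
    (key u _ huP hu1 (hcomm u (hQ huP))) (htr _ z.1.2)
  exact mem_PH_of_borel_trace_two H hdet hp
    (key _ q hzP (fun e => hz1 (Subtype.ext (Subtype.ext e))) (hcomm q hq).symm) (htr q hq)

/-- All elements of trace two are conjugate into the unipotent part. -/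
lemma exists_conj_mem_PH (hp : p ≠ 2) (hdet : ∀ h ∈ H, h.1.det = 1) (hu : PH H ≠ ⊥) (g : H)
    (hg : (mat H g).trace = 2) : ∃ x : H, x⁻¹ * g * x ∈ PH H := by
  obtain ⟨Q, hQ⟩ := exists_sylow_eq (p := p) hp hdet hu
  have hpg : IsPGroup p (Subgroup.zpowers g) := IsPGroup.of_card_dvd_pow (n := 1) (by
    rw [Nat.card_zpowers, pow_one]
    exact orderOf_dvd_of_pow_eq_one (Subtype.ext (by
      simpa using pow_char_eq_one_of_trace_two (p := p) (hdet _ g.2) hg)))
  obtain ⟨Q', hQ'⟩ := hpg.exists_le_sylow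
  obtain ⟨x, hx⟩ := MulAction.exists_smul_eq H Q Q'
  refine ⟨x, ?_⟩
  have hmem : g ∈ ((x • Q : Sylow p H) : Subgroup H) := by
    rw [hx]; exact hQ' (Subgroup.mem_zpowers g)
  rw [Sylow.coe_subgroup_smul, Subgroup.mem_pointwise_smul_iff_inv_smul_mem, hQ] at hmem
  simpa [MulAut.smul_def] using hmem

end Fermat.Agent.ClassField.TWElement
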